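import Fermat.Agent.FurstenbergKifer.Almost
import Mathlib.Analysis.InnerProductSpace.Adjoint

/-!
# Adjoints and products from the left

The adjoint of `x (n - 1) * ... * x 0` is a product `y 0 * ... * y (n - 1)`, and the law of the
adjoints inherits strong irreducibility and proximality.
-/

set_option autoImplicit false

noncomputable section

namespace FA.GuivarchRaugi

open MeasureTheory Filter Topology Module Set
open FA.FurstenbergLyapunov
open ContinuousLinearMap (adjoint adjoint_inner_left adjoint_inner_right adjoint_adjoint)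
open scoped RealInnerProductSpace

variable {E : Type*} [NormedAddCommGroup E] [InnerProductSpace ℝ E] [FiniteDimensional ℝ E]

/-- The range is contained in a line. -/
def IsLine (H : E →L[ℝ] E) : Prop := ∃ u : E, ‖u‖ = 1 ∧ ∀ v, H v = ⟪u, H v⟫ • u

/-- Some renormalised products converge to an operator of rank one. -/
def Proximal (S : Set (E →L[ℝ] E)) : Prop :=
  ∃ (A : ℕ → E →L[ℝ] E) (P : E →L[ℝ] E), (∀ j, A j ∈ Submonoid.closure S) ∧
    Tendsto (fun j => ‖A j‖⁻¹ • A j) atTop (𝓝 P) ∧ IsLine P

omit [FiniteDimensional ℝ E] in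
theorem isLine_of_forall_exists [Nontrivial E] {H : E →L[ℝ] E} {a : E}
    (h : ∀ v, ∃ c : ℝ, H v = c • a) : IsLine H := by
  rcases eq_or_ne a 0 with rfl | ha
  · refine ⟨basePoint E, norm_eq_of_mem_sphere _, fun v => ?_⟩
    obtain ⟨c, hc⟩ := h v
    simp [hc]
  · refine ⟨‖a‖⁻¹ • a, norm_smul_inv_norm ha, fun v => ?_⟩
    obtain ⟨c, hc⟩ := h v
    rw [hc, real_inner_smul_left, real_inner_smul_right, real_inner_self_eq_norm_sq, smul_smul]
    congr 1
    field_simp

theorem adjoint_apply_of_line {H : E →L[ℝ] E} {u : E} (h : ∀ v, H v = ⟪u, H v⟫ • u) (w : E) :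
    adjoint H w = ⟪u, w⟫ • adjoint H u := by
  refine ext_inner_right ℝ fun v => ?_
  rw [adjoint_inner_left, real_inner_smul_left, adjoint_inner_left]
  conv_lhs => rw [h v]
  rw [real_inner_smul_right, real_inner_comm u w, mul_comm]

theorem IsLine.adjoint [Nontrivial E] {H : E →L[ℝ] E} (h : IsLine H) : IsLine (adjoint H) := by
  obtain ⟨u, -, hu⟩ := h
  exact isLine_of_forall_exists fun w => ⟨_, adjoint_apply_of_line hu w⟩

theorem norm_adjoint (A : E →L[ℝ] E) : ‖adjoint A‖ = ‖A‖ := adjoint.norm_map A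

theorem adjoint_smul (c : ℝ) (A : E →L[ℝ] E) : adjoint (c • A) = c • adjoint A := by
  rw [map_smulₛₗ]
  rfl

theorem adjoint_mul (A B : E →L[ℝ] E) : adjoint (A * B) = adjoint B * adjoint A :=
  ContinuousLinearMap.adjoint_comp A B

theorem continuous_adjoint : Continuous fun A : E →L[ℝ] E => adjoint A := adjoint.continuous

theorem adjoint_mem_unitDet {A : E →L[ℝ] E} (hA : A ∈ unitDet E) : adjoint A ∈ unitDet E := by
  show |LinearMap.det ((adjoint A : E →L[ℝ] E) : E →ₗ[ℝ] E)| = 1
  rw [← ContinuousLinearMap.adjoint_toLinearMap,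
    ← LinearMap.det_toMatrix (stdOrthonormalBasis ℝ E).toBasis, LinearMap.toMatrix_adjoint,
    Matrix.det_conjTranspose, star_trivial, LinearMap.det_toMatrix]
  exact hA

/-- The law of the adjoints. -/
def adjLaw (μ : Measure (E →L[ℝ] E)) : Measure (E →L[ℝ] E) := μ.map fun A => adjoint A

variable (μ : Measure (E →L[ℝ] E)) [IsProbabilityMeasure μ]

instance : IsProbabilityMeasure (adjLaw μ) :=
  Measure.isProbabilityMeasure_map continuous_adjoint.measurable.aemeasurable

omit [IsProbabilityMeasure μ] in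
theorem adjLaw_unitDet (hμ : ∀ᵐ A ∂μ, A ∈ unitDet E) : ∀ᵐ A ∂(adjLaw μ), A ∈ unitDet E :=
  (ae_map_iff continuous_adjoint.measurable.aemeasurable isClosed_unitDet.measurableSet).2
    (hμ.mono fun _ hA => adjoint_mem_unitDet hA)

omit [IsProbabilityMeasure μ] in
theorem adjoint_mem_support {A : E →L[ℝ] E} (hA : A ∈ μ.support) :
    adjoint A ∈ (adjLaw μ).support := by
  rw [Measure.mem_support_iff_forall] at hA ⊢
  exact fun U hU => (hA _ (continuous_adjoint.continuousAt.preimage_mem_nhds hU)).trans_le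
    (Measure.le_map_apply continuous_adjoint.measurable.aemeasurable U)

omit [IsProbabilityMeasure μ] in
theorem adjLaw_stronglyIrreducible (hμ : ∀ᵐ A ∂μ, A ∈ unitDet E)
    (hsi : StronglyIrreducible μ.support) : StronglyIrreducible (adjLaw μ).support := by
  classical
  rintro ⟨F, hF, hFp, hFi⟩
  refine hsi ⟨F.image fun W => Wᗮ, hF.image _, fun U hU => ?_, fun A hA U hU => ?_⟩
  · obtain ⟨W, hW, rfl⟩ := Finset.mem_image.1 hU
    exact ⟨fun h => (hFp W hW).2 (Submodule.orthogonal_eq_bot_iff.1 h),
      fun h => (hFp W hW).1 (by rwa [← Submodule.orthogonal_orthogonal W,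
        Submodule.orthogonal_eq_bot_iff])⟩
  obtain ⟨W', hW', rfl⟩ := Finset.mem_image.1 hU
  have hA1 : A ∈ unitDet E := Measure.support_subset_of_isClosed isClosed_unitDet hμ hA
  have hinjA : Function.Injective (A : E →ₗ[ℝ] E) := injective_of_unitDet hA1
  set σ : F → F := fun W =>
    ⟨W.1.map (adjoint A : E →ₗ[ℝ] E), hFi _ (adjoint_mem_support μ hA) W.1 W.2⟩
  have hσ : Function.Injective σ := fun V W h => Subtype.ext (Submodule.map_injective_of_injective
    (injective_of_unitDet (adjoint_mem_unitDet hA1)) (congrArg Subtype.val h))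
  obtain ⟨W, hW⟩ := (Finite.injective_iff_surjective.1 hσ) ⟨W', hW'⟩
  replace hW : W.1.map (adjoint A : E →ₗ[ℝ] E) = W' := congrArg Subtype.val hW
  refine Finset.mem_image.2 ⟨W.1, W.2, ?_⟩
  have hiff : ∀ x, x ∈ W'ᗮ ↔ A x ∈ W.1ᗮ := fun x => by
    rw [← hW]
    simp only [Submodule.mem_orthogonal]
    refine ⟨fun h w hw => ?_, fun h z hz => ?_⟩
    · rw [← adjoint_inner_left]
      exact h _ (Submodule.mem_map_of_mem hw)
    · obtain ⟨w, hw, rfl⟩ := hz
      exact (adjoint_inner_left A x w).trans (h w hw)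
  ext y
  refine ⟨fun hy => ?_, ?_⟩
  · obtain ⟨x, rfl⟩ := LinearMap.injective_iff_surjective.1 hinjA y
    exact ⟨x, (hiff x).2 hy, rfl⟩
  · rintro ⟨x, hx, rfl⟩
    exact (hiff x).1 hx

omit [IsProbabilityMeasure μ] in
theorem adjoint_mem_closure {A : E →L[ℝ] E} (hA : A ∈ Submonoid.closure μ.support) :
    adjoint A ∈ Submonoid.closure (adjLaw μ).support := by
  refine Submonoid.closure_induction
    (motive := fun B _ => adjoint B ∈ Submonoid.closure (adjLaw μ).support) ?_ ?_ ?_ hA
  · exact fun B hB => Submonoid.subset_closure (adjoint_mem_support μ hB)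
  · rw [ContinuousLinearMap.adjoint_one]
    exact one_mem _
  · intro B C _ _ hB hC
    rw [adjoint_mul]
    exact mul_mem hC hB

omit [IsProbabilityMeasure μ] in
theorem adjLaw_proximal [Nontrivial E] (h : Proximal μ.support) :
    Proximal (adjLaw μ).support := by
  obtain ⟨A, P, hA, hP, hline⟩ := h
  refine ⟨fun j => adjoint (A j), adjoint P, fun j => adjoint_mem_closure μ (hA j), ?_,
    hline.adjoint⟩
  refine ((continuous_adjoint.tendsto P).comp hP).congr fun j => ?_
  rw [norm_adjoint]
  exact adjoint_smul _ _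

/-- The product `x 0 * ... * x (n - 1)`. -/
def leftProd : ℕ → (ℕ → E →L[ℝ] E) → E →L[ℝ] E
  | 0, _ => 1
  | n + 1, x => leftProd n x * x n

omit [FiniteDimensional ℝ E] in
theorem leftProd_succ (n : ℕ) (x : ℕ → E →L[ℝ] E) : leftProd (n + 1) x = leftProd n x * x n := rfl

omit [FiniteDimensional ℝ E] in
theorem leftProd_succ' (n : ℕ) (x : ℕ → E →L[ℝ] E) :
    leftProd (n + 1) x = x 0 * leftProd n (shift x) := by
  induction n with
  | zero => simp [leftProd]
  | succ n ih => rw [leftProd_succ, ih, leftProd_succ n (shift x), mul_assoc]; rfl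

omit [FiniteDimensional ℝ E] in
theorem leftProd_congr {n : ℕ} {x y : ℕ → E →L[ℝ] E} (h : ∀ i < n, x i = y i) :
    leftProd n x = leftProd n y := by
  induction n with
  | zero => rfl
  | succ n ih =>
    rw [leftProd_succ, leftProd_succ, ih fun i hi => h i (by omega), h n n.lt_succ_self]

omit [FiniteDimensional ℝ E] in
theorem leftProd_mem_unitDet {x : ℕ → E →L[ℝ] E} (hx : ∀ i, x i ∈ unitDet E) (n : ℕ) :
    leftProd n x ∈ unitDet E := by
  induction n with
  | zero => exact one_mem_unitDet
  | succ n ih => exact mul_mem_unitDet ih (hx n)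

theorem measurable_leftProd (n : ℕ) : Measurable (leftProd (E := E) n) := by
  induction n with
  | zero => exact measurable_const
  | succ n ih => exact (continuous_mul.measurable.comp (ih.prodMk (measurable_pi_apply n)) :)

theorem leftProd_adjoint (n : ℕ) (x : ℕ → E →L[ℝ] E) :
    leftProd n (fun i => adjoint (x i)) = adjoint (randProd n x) := by
  induction n with
  | zero => simp [leftProd, randProd, FA.Kingman.cocycleProd]
  | succ n ih => rw [leftProd_succ, ih, randProd_succ', adjoint_mul]

theorem map_adjoint_seq :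
    (Measure.infinitePi fun _ : ℕ => μ).map (fun x i => adjoint (x i)) =
      Measure.infinitePi fun _ : ℕ => adjLaw μ :=
  Measure.infinitePi_map_pi (μ := fun _ : ℕ => μ) fun _ => continuous_adjoint.measurable

end FA.GuivarchRaugi
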