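import Fermat.Agent.PointwiseErgodic.Birkhoff

/-!
# Sums tending to infinity have positive mean

Atkinson's lemma: if the Birkhoff sums of an integrable function tend to infinity almost everywhere
then its integral is positive.  With `m` the infimum of the sums, `f = m⁺ - m⁻ + m⁻ ∘ T`.
-/

set_option autoImplicit false

noncomputable section

namespace FA.GuivarchRaugi

open MeasureTheory Filter Topology Set

variable {α : Type*} {T : α → α} {f : α → ℝ}

/-- The infimum of the Birkhoff sums with at least one term. -/
def infSum (T : α → α) (f : α → ℝ) (x : α) : ℝ := ⨅ n : ℕ, birkhoffSum T f (n + 1) x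

theorem bddBelow_sums {x : α} (hx : Tendsto (fun n => birkhoffSum T f n x) atTop atTop) :
    BddBelow (range fun n : ℕ => birkhoffSum T f (n + 1) x) := by
  obtain ⟨N, hN⟩ := eventually_atTop.1 (hx.eventually (eventually_ge_atTop 0))
  refine ⟨-∑ i ∈ Finset.range (N + 1), |birkhoffSum T f i x|, ?_⟩
  rintro _ ⟨n, rfl⟩
  have h0 : 0 ≤ ∑ i ∈ Finset.range (N + 1), |birkhoffSum T f i x| :=
    Finset.sum_nonneg fun i _ => abs_nonneg _
  by_cases hn : n + 1 ≤ N
  · linarith [neg_abs_le (birkhoffSum T f (n + 1) x), Finset.single_le_sum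
      (f := fun i => |birkhoffSum T f i x|) (fun i _ => abs_nonneg _)
      (Finset.mem_range.2 (Nat.lt_succ_of_le hn))]
  · linarith [hN (n + 1) (by omega)]

theorem tendsto_sums_map {x : α} (hx : Tendsto (fun n => birkhoffSum T f n x) atTop atTop) :
    Tendsto (fun n => birkhoffSum T f n (T x)) atTop atTop := by
  refine (((tendsto_add_atTop_iff_nat 1).2 hx).atTop_add (tendsto_const_nhds (x := -f x))).congr
    fun n => ?_
  rw [birkhoffSum_succ']
  ring

theorem sub_eq_infSum {x : α} (hx : Tendsto (fun n => birkhoffSum T f n x) atTop atTop) :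
    f x = max (infSum T f x) 0 - max (-infSum T f x) 0 + max (-infSum T f (T x)) 0 := by
  have hb := bddBelow_sums hx
  have hb' := bddBelow_sums (tendsto_sums_map hx)
  have h : infSum T f x = f x + min 0 (infSum T f (T x)) := by
    refine le_antisymm ?_ (le_ciInf fun n => ?_)
    · rw [← min_add_add_left, add_zero]
      refine le_min ((ciInf_le hb 0).trans_eq (birkhoffSum_one T f x)) ?_
      rw [← sub_le_iff_le_add']
      refine le_ciInf fun n => ?_
      rw [sub_le_iff_le_add', ← birkhoffSum_succ']
      exact ciInf_le hb (n + 1)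
    · cases n with
      | zero =>
        rw [birkhoffSum_one]
        linarith [min_le_left 0 (infSum T f (T x))]
      | succ n =>
        rw [birkhoffSum_succ']
        linarith [min_le_right 0 (infSum T f (T x)), show infSum T f (T x) ≤ _ from ciInf_le hb' n]
  have e1 : max (infSum T f x) 0 - max (-infSum T f x) 0 = infSum T f x := by
    rcases le_total (infSum T f x) 0 with h' | h' <;> simp [h']
  have e2 : max (-infSum T f (T x)) 0 = -min 0 (infSum T f (T x)) := by
    rcases le_total (infSum T f (T x)) 0 with h' | h' <;> simp [h']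
  linarith

theorem birkhoffSum_eq_infSum (n : ℕ) {x : α}
    (hx : Tendsto (fun k => birkhoffSum T f k x) atTop atTop) :
    birkhoffSum T f n x = birkhoffSum T (fun y => max (infSum T f y) 0) n x -
      max (-infSum T f x) 0 + max (-infSum T f (T^[n] x)) 0 := by
  induction n generalizing x with
  | zero => simp
  | succ n ih =>
    rw [birkhoffSum_succ', birkhoffSum_succ', Function.iterate_succ_apply, ih (tendsto_sums_map hx)]
    linarith [sub_eq_infSum hx]

variable [MeasurableSpace α] {μ : Measure α} [IsProbabilityMeasure μ]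

/-- **Atkinson's lemma.** -/
theorem integral_pos_of_birkhoffSum_atTop (hT : MeasurePreserving T μ μ) (hfm : Measurable f)
    (hf : Integrable f μ)
    (hlim : ∀ᵐ x ∂μ, Tendsto (fun n => birkhoffSum T f n x) atTop atTop) :
    0 < ∫ x, f x ∂μ := by
  have hSm : ∀ n, Measurable (birkhoffSum T f n) := fun n =>
    Finset.measurable_sum _ fun k _ => hfm.comp (hT.measurable.iterate k)
  have hm : Measurable (infSum T f) := Measurable.iInf fun n => hSm (n + 1)
  set p : α → ℝ := fun x => max (infSum T f x) 0 with hp
  set q : α → ℝ := fun x => max (-infSum T f x) 0 with hq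
  set φ : α → ℝ := fun x => min (p x) 1 with hφ
  have hφ0 : ∀ x, 0 ≤ φ x := fun x => le_min (le_max_right _ _) zero_le_one
  have hφi : Integrable φ μ := Integrable.of_bound
    ((hm.max measurable_const).min measurable_const).aestronglyMeasurable 1
    (.of_forall fun x => by rw [Real.norm_of_nonneg (hφ0 x)]; exact min_le_right _ _)
  have hle : ∫ x, φ x ∂μ ≤ ∫ x, f x ∂μ := by
    rw [← integral_condExp (MeasurableSpace.invariants_le T) (f := φ),
      ← integral_condExp (MeasurableSpace.invariants_le T) (f := f)]
    refine integral_mono_ae integrable_condExp integrable_condExp ?_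
    filter_upwards [hlim, FA.PointwiseErgodic.tendsto_average hT hf,
      FA.PointwiseErgodic.tendsto_average hT hφi] with x hx hxf hxφ
    refine le_of_tendsto_of_tendsto (hxφ.sub (tendsto_const_div_atTop_nhds_zero_nat (q x)))
      hxf (.of_forall fun n => ?_) |>.trans' (by rw [sub_zero])
    simp only [birkhoffAverage, smul_eq_mul, div_eq_inv_mul, ← mul_sub]
    refine mul_le_mul_of_nonneg_left ?_ (by positivity)
    have h1 : birkhoffSum T φ n x ≤ birkhoffSum T p n x :=
      Finset.sum_le_sum fun k _ => min_le_left _ _
    have h2 := birkhoffSum_eq_infSum n hx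
    have h3 : 0 ≤ q (T^[n] x) := le_max_right _ _
    simp only [hp, hq] at h1 h3 ⊢
    linarith
  refine lt_of_le_of_ne (integral_nonneg hφ0) (fun h0 => ?_) |>.trans_le hle
  have hp0 : ∀ᵐ x ∂μ, ∀ k, p (T^[k] x) = 0 := ae_all_iff.2 fun k => by
    refine (hT.iterate k).quasiMeasurePreserving.ae (p := fun x => p x = 0) ?_
    filter_upwards [(integral_eq_zero_iff_of_nonneg hφ0 hφi).1 h0.symm] with x hx
    rcases min_choice (p x) 1 with h | h
    · exact h.symm.trans hx
    · exact absurd (h.symm.trans hx) one_ne_zero
  have hqm : Measurable q := hm.neg.max measurable_const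
  obtain ⟨M, hM⟩ : ∃ M : ℕ, μ {x | q x ≤ M} ≠ 0 := by
    by_contra h
    push Not at h
    have huniv : (univ : Set α) ⊆ ⋃ M : ℕ, {x | q x ≤ M} := fun x _ =>
      mem_iUnion.2 ⟨⌈q x⌉₊, show q x ≤ (⌈q x⌉₊ : ℝ) from Nat.le_ceil _⟩
    exact (IsProbabilityMeasure.ne_zero μ) (Measure.measure_univ_eq_zero.1
      (measure_mono_null huniv (measure_iUnion_null h)))
  set s := {x | q x ≤ M}
  have hsm : MeasurableSet s := measurableSet_le hqm measurable_const
  have hconst : ∀ n, ∫ x, s.indicator (fun _ => (1 : ℝ)) (T^[n] x) ∂μ = μ.real s := fun n => by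
    rw [← integral_map (hT.iterate n).measurable.aemeasurable
      (measurable_const.indicator hsm).aestronglyMeasurable, (hT.iterate n).map_eq,
      integral_indicator_const _ hsm, smul_eq_mul, mul_one]
  have h := tendsto_integral_of_dominated_convergence (μ := μ) (fun _ => (1 : ℝ))
    (F := fun n x => s.indicator (fun _ => (1 : ℝ)) (T^[n] x)) (f := fun _ => (0 : ℝ))
    (fun n => ((measurable_const.indicator hsm).comp
      (hT.iterate n).measurable).aestronglyMeasurable) (integrable_const _)
    (fun n => .of_forall fun x => by by_cases hx : T^[n] x ∈ s <;> simp [hx]) ?_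
  · simp only [hconst, integral_zero] at h
    exact hM ((measureReal_eq_zero_iff).1 (tendsto_nhds_unique tendsto_const_nhds h))
  filter_upwards [hlim, hp0] with x hx hxp
  refine tendsto_const_nhds.congr' ?_
  filter_upwards [hx.eventually (eventually_gt_atTop ((M : ℝ) - q x))] with n hn
  have hsum : birkhoffSum T p n x = 0 := Finset.sum_eq_zero fun k _ => hxp k
  have h2 := birkhoffSum_eq_infSum n hx
  refine (Set.indicator_of_notMem (s := s) (fun hmem => ?_) _).symm
  replace hmem : q (T^[n] x) ≤ M := hmem
  simp only [hp, hq] at hsum hmem hn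
  linarith

end FA.GuivarchRaugi
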