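import Fermat.Agent.GuivarchRaugi.RankOne
import Fermat.Agent.Oseledets.Singular
import Mathlib.Probability.Martingale.Convergence
import Mathlib.Probability.Process.Filtration

/-!
# The limit of the directions

The means along products from the left are bounded martingales, so they converge and the limiting
lines agree: for the products `Q n` almost surely all `‖Q n v‖ / ‖Q n‖` converge, the second
singular value is negligible, and by strong irreducibility no given vector has the limit `0`.
-/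

set_option autoImplicit false

noncomputable section

namespace FA.GuivarchRaugi

open MeasureTheory ProbabilityTheory Filter Topology Module Set
open FA.FurstenbergLyapunov FA.FurstenbergKifer
open ContinuousLinearMap (adjoint adjoint_adjoint)
open scoped RealInnerProductSpace ENNReal NNReal BoundedContinuousFunction

variable {E : Type*} [NormedAddCommGroup E] [InnerProductSpace ℝ E] [FiniteDimensional ℝ E]

/-- A sequence with the given first terms, continued by ones. -/
def extendSeq (n : ℕ) (p : Set.Iic n → E →L[ℝ] E) (i : ℕ) : E →L[ℝ] E :=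
  if h : i ≤ n then p ⟨i, h⟩ else 1

omit [FiniteDimensional ℝ E] in
theorem measurable_extendSeq (n : ℕ) : Measurable (extendSeq (E := E) n) :=
  measurable_pi_lambda _ fun i => by
    by_cases h : i ≤ n <;> simp only [extendSeq, h, dite_true, dite_false]
    · exact measurable_pi_apply _
    · exact measurable_const

omit [FiniteDimensional ℝ E] in
theorem leftProd_extendSeq (n : ℕ) (x : ℕ → E →L[ℝ] E) :
    leftProd (n + 1) (extendSeq n (Preorder.restrictLe n x)) = leftProd (n + 1) x :=
  leftProd_congr fun i hi => by rw [extendSeq, dif_pos (Nat.lt_succ_iff.1 hi)]; rfl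

variable (μ : Measure (E →L[ℝ] E)) [IsProbabilityMeasure μ]

omit [FiniteDimensional ℝ E] in
/-- The first `n + 1` terms are independent of the next. -/
theorem map_prefix_next (n : ℕ) :
    (Measure.infinitePi fun _ : ℕ => μ).map (fun x => (Preorder.restrictLe n x, x (n + 1))) =
      ((Measure.infinitePi fun _ : ℕ => μ).map (Preorder.restrictLe n)).prod μ := by
  set π := Measure.infinitePi fun _ : ℕ => μ with hπ
  have hind : iIndepFun (fun (i : ℕ) (x : ℕ → E →L[ℝ] E) => x i) π :=
    iIndepFun_infinitePi (X := fun _ => id) fun _ => measurable_id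
  have h1 := hind.indepFun_finset (Finset.range (n + 1)) {n + 1} (by simp)
    fun i => measurable_pi_apply i
  set φ : (Finset.range (n + 1) → E →L[ℝ] E) → Set.Iic n → E →L[ℝ] E :=
    fun p i => p ⟨i.1, Finset.mem_range.2 (Nat.lt_succ_of_le i.2)⟩
  set ψ : (({n + 1} : Finset ℕ) → E →L[ℝ] E) → E →L[ℝ] E :=
    fun p => p ⟨n + 1, Finset.mem_singleton_self _⟩
  have h2 : IndepFun (Preorder.restrictLe n) (fun x : ℕ → E →L[ℝ] E => x (n + 1)) π :=
    h1.comp (φ := φ) (ψ := ψ) (measurable_pi_lambda _ fun i => measurable_pi_apply _)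
      (measurable_pi_apply _)
  rw [(indepFun_iff_map_prod_eq_prod_map_map
    (Preorder.measurable_restrictLe n).aemeasurable (measurable_pi_apply _).aemeasurable).1 h2,
    hπ, Measure.infinitePi_map_eval]

variable [MeasurableSpace E] [BorelSpace E] [Nontrivial E] {μ}
  {ν : Measure (Sph E)} [IsProbabilityMeasure ν]

/-- **The means converge.** -/
theorem ae_tendsto_dirMean (hμ : ∀ᵐ A ∂μ, A ∈ unitDet E) (hν : stepLaw μ ν = ν)
    (φ : Sph E →ᵇ ℝ) :
    ∀ᵐ x ∂(Measure.infinitePi fun _ : ℕ => μ),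
      ∃ c, Tendsto (fun n => dirMean ν φ (leftProd n x)) atTop (𝓝 c) := by
  set π := Measure.infinitePi fun _ : ℕ => μ with hπ
  set F : (n : ℕ) → (Set.Iic n → E →L[ℝ] E) → ℝ :=
    fun n p => dirMean ν φ (leftProd (n + 1) (extendSeq n p)) with hF
  have hFm : ∀ n, Measurable (F n) := fun n =>
    (measurable_dirMean ν φ).comp ((measurable_leftProd _).comp (measurable_extendSeq n))
  set Z : ℕ → (ℕ → E →L[ℝ] E) → ℝ := fun n x => dirMean ν φ (leftProd (n + 1) x) with hZ
  have hZF : ∀ n x, Z n x = F n (Preorder.restrictLe n x) := fun n x => by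
    simp only [hZ, hF, leftProd_extendSeq]
  have hZm : ∀ n, Measurable (Z n) := fun n =>
    (measurable_dirMean ν φ).comp (measurable_leftProd _)
  have hZb : ∀ n x, ‖Z n x‖ ≤ ‖φ‖ := fun n x => abs_dirMean_le ν φ _
  have hint : ∀ n, Integrable (Z n) π := fun n =>
    Integrable.of_bound (hZm n).aestronglyMeasurable _ (.of_forall (hZb n))
  have hmart : Martingale Z Filtration.piLE π := by
    refine martingale_of_setIntegral_eq_succ (fun n => ?_) hint fun n s hs => ?_
    · rw [show Z n = F n ∘ Preorder.restrictLe n from funext (hZF n)]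
      exact ((hFm n).comp (comap_measurable _)).stronglyMeasurable
    obtain ⟨S, hS, rfl⟩ := hs
    set κ := π.map (Preorder.restrictLe (π := fun _ : ℕ => E →L[ℝ] E) n)
    have : IsProbabilityMeasure κ :=
      Measure.isProbabilityMeasure_map (Preorder.measurable_restrictLe n).aemeasurable
    set G : (Set.Iic n → E →L[ℝ] E) × (E →L[ℝ] E) → ℝ :=
      fun q => dirMean ν φ (leftProd (n + 1) (extendSeq n q.1) * q.2) with hG
    have hGm : Measurable G := by
      have h1 : Measurable fun q : (Set.Iic n → E →L[ℝ] E) × (E →L[ℝ] E) =>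
          leftProd (n + 1) (extendSeq n q.1) :=
        ((measurable_leftProd (n + 1)).comp (measurable_extendSeq n)).comp measurable_fst
      exact (measurable_dirMean ν φ).comp
        ((continuous_mul.measurable.comp (h1.prodMk measurable_snd) :))
    have hpair : Measurable fun x : ℕ → E →L[ℝ] E => (Preorder.restrictLe n x, x (n + 1)) :=
      (Preorder.measurable_restrictLe n).prodMk (measurable_pi_apply _)
    have hu : ∀ᵐ p ∂κ, leftProd (n + 1) (extendSeq n p) ∈ unitDet E :=
      (ae_map_iff (Preorder.measurable_restrictLe n).aemeasurable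
        (show MeasurableSet {p : Set.Iic n → E →L[ℝ] E |
            leftProd (n + 1) (extendSeq n p) ∈ unitDet E} from
          ((measurable_leftProd (n + 1)).comp (measurable_extendSeq n))
          isClosed_unitDet.measurableSet)).2
        ((ae_all_unitDet μ hμ).mono fun x hx => by
          rw [leftProd_extendSeq]; exact leftProd_mem_unitDet hx _)
    calc ∫ x in Preorder.restrictLe n ⁻¹' S, Z n x ∂π
        = ∫ p in S, F n p ∂κ := by
          rw [setIntegral_map hS (hFm n).aestronglyMeasurable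
            (Preorder.measurable_restrictLe n).aemeasurable]
          simp only [hZF]
      _ = ∫ p in S, ∫ A, G (p, A) ∂μ ∂κ := by
          refine setIntegral_congr_ae hS (hu.mono fun p hp _ => ?_)
          exact (integral_dirMean_mul hμ hν φ hp).symm
      _ = ∫ q in S ×ˢ (univ : Set (E →L[ℝ] E)), G q ∂(κ.prod μ) := by
          rw [setIntegral_prod G (Integrable.of_bound hGm.aestronglyMeasurable ‖φ‖
            (.of_forall fun q => abs_dirMean_le ν φ _)).integrableOn]
          simp only [setIntegral_univ]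
      _ = ∫ x in Preorder.restrictLe n ⁻¹' S, Z (n + 1) x ∂π := by
          rw [← map_prefix_next μ n, setIntegral_map (hS.prod .univ) hGm.aestronglyMeasurable
            hpair.aemeasurable]
          rw [show (fun x : ℕ → E →L[ℝ] E => (Preorder.restrictLe n x, x (n + 1))) ⁻¹'
              S ×ˢ univ = Preorder.restrictLe n ⁻¹' S by ext x; simp]
          refine setIntegral_congr_ae (Preorder.measurable_restrictLe n hS)
            (.of_forall fun x _ => ?_)
          show G (Preorder.restrictLe n x, x (n + 1)) = Z (n + 1) x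
          simp only [hG, hZ, leftProd_extendSeq]
          rfl
  have hbd : ∀ n, eLpNorm (Z n) 1 π ≤ (‖φ‖₊ : ℝ≥0∞) := fun n =>
    (eLpNorm_le_of_ae_bound (.of_forall (hZb n))).trans_eq (by simp [← enorm_eq_nnnorm])
  filter_upwards [hmart.submartingale.exists_ae_tendsto_of_bdd hbd] with x hx
  obtain ⟨c, hc⟩ := hx
  exact ⟨c, (tendsto_add_atTop_iff_nat 1).1 hc⟩

omit [MeasurableSpace E] [BorelSpace E] [Nontrivial E] in
theorem singularValue_one_of_line {H : E →L[ℝ] E} (h : IsLine H) :
    (H : E →ₗ[ℝ] E).singularValues 1 = 0 := by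
  obtain ⟨u, hu1, hu⟩ := h
  rw [LinearMap.singularValues_eq_zero_iff_le_finrank_range]
  refine (Submodule.finrank_mono (t := ℝ ∙ u) ?_).trans (le_of_eq
    (finrank_span_singleton fun h => by rw [h, norm_zero] at hu1; exact zero_ne_one hu1))
  rintro _ ⟨v, rfl⟩
  exact Submodule.mem_span_singleton.2 ⟨_, (hu v).symm⟩

omit [MeasurableSpace E] [BorelSpace E] [Nontrivial E] in
theorem singularValue_smul {c : ℝ} (hc : 0 < c) (A : E →L[ℝ] E) (i : ℕ) :
    ((c • A : E →L[ℝ] E) : E →ₗ[ℝ] E).singularValues i =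
      c * (A : E →ₗ[ℝ] E).singularValues i := by
  have key : ∀ (d : ℝ), 0 < d → ∀ B : E →L[ℝ] E, d * (B : E →ₗ[ℝ] E).singularValues i ≤
      ((d • B : E →L[ℝ] E) : E →ₗ[ℝ] E).singularValues i := fun d hd B => by
    by_cases hi : i < finrank ℝ E
    · refine FA.Oseledets.le_singularValue _ ⟨i, hi⟩ _
        (FA.Oseledets.finrank_topSpace (B : E →ₗ[ℝ] E) ⟨i, hi⟩) fun w hw => ?_
      rw [mul_assoc, show ‖((d • B : E →L[ℝ] E) : E →ₗ[ℝ] E) w‖ = d * ‖(B : E →ₗ[ℝ] E) w‖ by
        simp [norm_smul, abs_of_pos hd]]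
      exact mul_le_mul_of_nonneg_left (FA.Oseledets.mul_norm_le_of_mem_topSpace _ _ hw) hd.le
    · simp [LinearMap.singularValues_of_finrank_le _ (not_lt.1 hi)]
  refine le_antisymm ?_ (key c hc A)
  have h := key c⁻¹ (inv_pos.2 hc) (c • A)
  rw [smul_smul, inv_mul_cancel₀ hc.ne', one_smul] at h
  rwa [inv_mul_le_iff₀ hc] at h

omit [FiniteDimensional ℝ E] [MeasurableSpace E] [BorelSpace E] [Nontrivial E] in
theorem tendsto_norm_apply_normalised {Q : ℕ → E →L[ℝ] E} {H : E →L[ℝ] E} {s : ℕ → ℕ}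
    (hH : Tendsto (fun j => ‖Q (s j)‖⁻¹ • Q (s j)) atTop (𝓝 H)) (v : E) :
    Tendsto (fun j => ‖Q (s j) v‖ / ‖Q (s j)‖) atTop (𝓝 ‖H v‖) := by
  refine ((((ContinuousLinearMap.apply ℝ E v).continuous.tendsto H).comp hH).norm).congr fun j => ?_
  show ‖(‖Q (s j)‖⁻¹ • Q (s j)) v‖ = _
  rw [smul_apply, norm_smul, norm_inv, norm_norm, inv_mul_eq_div]

omit [BorelSpace E] in
/-- For a limit of rank one the mean of a quadratic test function is the square of `‖H† w‖`. -/
theorem dirMean_pairTest_line (hnull : ∀ W : Submodule ℝ E, W ≠ ⊤ → mass ν W = 0)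
    {K : E →L[ℝ] E} (hK : ‖K‖ = 1) (hline : IsLine K) (w : E) :
    dirMean ν (pairTest w w) K = ‖adjoint K w‖ ^ 2 := by
  obtain ⟨u, hu, hKu⟩ := hline
  have hK0 : K ≠ 0 := fun h => by rw [h, norm_zero] at hK; exact zero_ne_one hK
  have hone : ‖adjoint K u‖ = 1 := by
    refine le_antisymm (((adjoint K).le_opNorm u).trans (by rw [norm_adjoint, hK, hu, one_mul])) ?_
    calc (1 : ℝ) = ‖adjoint K‖ := by rw [norm_adjoint, hK]
      _ ≤ ‖adjoint K u‖ := ContinuousLinearMap.opNorm_le_bound _ (norm_nonneg _) fun v => by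
        rw [adjoint_apply_of_line hKu v, norm_smul, Real.norm_eq_abs, mul_comm]
        refine mul_le_mul_of_nonneg_left ((abs_real_inner_le_norm u v).trans_eq ?_) (norm_nonneg _)
        rw [hu, one_mul]
  rw [adjoint_apply_of_line hKu w, norm_smul, hone, mul_one, Real.norm_eq_abs, sq_abs]
  have h : ∀ᵐ v : Sph E ∂ν, pairTest w w (act K v) = ⟪u, w⟫ ^ 2 := by
    filter_upwards [ae_apply_ne_zero ν hnull hK0] with v hv
    have hn : ‖K (v : E)‖ = |⟪u, K (v : E)⟫| := by
      conv_lhs => rw [hKu (v : E), norm_smul, hu, mul_one, Real.norm_eq_abs]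
    have hw : ⟪w, K (v : E)⟫ = ⟪u, K (v : E)⟫ * ⟪u, w⟫ := by
      conv_lhs => rw [hKu (v : E), real_inner_smul_right, real_inner_comm u w]
    rw [pairTest_apply, act_eq, coe_dir hv, real_inner_smul_right, hw, hn]
    have hne : ⟪u, K (v : E)⟫ ≠ 0 := fun h0 => hv (by rw [hKu (v : E), h0, zero_smul])
    rcases abs_choice ⟪u, K (v : E)⟫ with h' | h' <;> rw [h'] <;> field_simp
  rw [dirMean, integral_congr_ae h]
  simp

/-- The vectors whose growth is negligible against the norm. -/
def negligible (x : ℕ → E →L[ℝ] E) : Submodule ℝ E where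
  carrier := {v | Tendsto (fun n => ‖randProd n x v‖ / ‖randProd n x‖) atTop (𝓝 0)}
  zero_mem' := by simp
  add_mem' := fun {v w} hv hw => by
    refine squeeze_zero (fun n => by positivity) (fun n => ?_) (by simpa using hv.add hw)
    rw [map_add, ← add_div]
    exact div_le_div_of_nonneg_right (norm_add_le _ _) (norm_nonneg _)
  smul_mem' := fun a v hv => by
    show Tendsto (fun n => ‖randProd n x (a • v)‖ / ‖randProd n x‖) atTop (𝓝 0)
    simp only [map_smul, norm_smul, mul_div_assoc]
    simpa using Tendsto.const_mul ‖a‖ hv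

theorem negligible_ne_top {x : ℕ → E →L[ℝ] E}
    (hx : ∀ i, x i ∈ unitDet E) : negligible x ≠ ⊤ := fun htop => by
  set b := stdOrthonormalBasis ℝ E
  have h : Tendsto (fun n => ∑ i, ‖randProd n x (b i)‖ / ‖randProd n x‖) atTop (𝓝 0) := by
    simpa using tendsto_finsetSum Finset.univ
      fun i _ => (htop ▸ Submodule.mem_top : b i ∈ negligible x)
  refine absurd (ge_of_tendsto h (.of_forall fun n => ?_)) (not_le.2 zero_lt_one)
  have hpos := one_pos.trans_le (one_le_norm (randProd_mem_unitDet hx n))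
  rw [← Finset.sum_div, one_le_div hpos]
  refine ContinuousLinearMap.opNorm_le_bound _ (by positivity) fun v => ?_
  conv_lhs => rw [← b.sum_repr' v, map_sum]
  refine (norm_sum_le _ _).trans ?_
  rw [Finset.sum_mul]
  refine Finset.sum_le_sum fun i _ => ?_
  rw [map_smul, norm_smul, mul_comm]
  refine mul_le_mul_of_nonneg_left ?_ (norm_nonneg _)
  simpa [b.orthonormal.1 i] using abs_real_inner_le_norm (b i) v

theorem mem_negligible_iff_shift {x : ℕ → E →L[ℝ] E} (hx : ∀ i, x i ∈ unitDet E) {v : E} :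
    v ∈ negligible x ↔ x 0 v ∈ negligible (shift x) := by
  set y := shift x
  have hy : ∀ i, y i ∈ unitDet E := fun i => hx (i + 1)
  have key : ∀ n, randProd n y (x 0 v) = randProd (n + 1) x v := fun n => by
    rw [randProd_succ, mul_apply_eq_comp]
  set e := (LinearEquiv.ofBijective ((x 0 : E →L[ℝ] E) : E →ₗ[ℝ] E)
    ⟨injective_of_unitDet (hx 0), LinearMap.injective_iff_surjective.1
      (injective_of_unitDet (hx 0))⟩).toContinuousLinearEquiv
  set B : E →L[ℝ] E := e.symm.toContinuousLinearMap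
  have hB : x 0 * B = 1 := ContinuousLinearMap.ext fun w => e.apply_symm_apply w
  have hp : ∀ n, 0 < ‖randProd n y‖ := fun n =>
    one_pos.trans_le (one_le_norm (randProd_mem_unitDet hy n))
  have hq : ∀ n, 0 < ‖randProd (n + 1) x‖ := fun n =>
    one_pos.trans_le (one_le_norm (randProd_mem_unitDet hx _))
  have h1 : ∀ n, ‖randProd n y‖ ≤ ‖randProd (n + 1) x‖ * ‖B‖ := fun n => by
    calc ‖randProd n y‖ = ‖randProd (n + 1) x * B‖ := by
          rw [randProd_succ, mul_assoc, hB, mul_one]
      _ ≤ _ := norm_mul_le _ _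
  have h2 : ∀ n, ‖randProd (n + 1) x‖ ≤ ‖randProd n y‖ * ‖x 0‖ := fun n => norm_mul_le _ _
  show Tendsto _ _ _ ↔ Tendsto (fun n => ‖randProd n y (x 0 v)‖ / ‖randProd n y‖) _ _
  simp only [key]
  rw [← tendsto_add_atTop_iff_nat 1]
  constructor <;> intro h
  · refine squeeze_zero (fun n => by positivity) (fun n => ?_)
      (by simpa using h.mul_const ‖x 0‖)
    rw [div_mul_eq_mul_div, div_le_div_iff₀ (hp n) (hq n), mul_assoc, mul_comm ‖x 0‖]
    exact mul_le_mul_of_nonneg_left (h2 n) (norm_nonneg _)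
  · refine squeeze_zero (fun n => by positivity) (fun n => ?_)
      (by simpa using h.mul_const ‖B‖)
    rw [div_mul_eq_mul_div, div_le_div_iff₀ (hq n) (hp n), mul_assoc, mul_comm ‖B‖]
    exact mul_le_mul_of_nonneg_left (h1 n) (norm_nonneg _)

omit [Nontrivial E] in
theorem measurableSet_mem_negligible {α : Type*} [MeasurableSpace α]
    {X : α → ℕ → E →L[ℝ] E} {V : α → E} (hX : Measurable X) (hV : Measurable V) :
    MeasurableSet {a | V a ∈ negligible (X a)} :=
  measurableSet_tendsto _ fun n =>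
    (continuous_norm.measurable.comp (measurable_eval.comp
      (((measurable_randProd n).comp hX).prodMk hV))).div
    (continuous_norm.measurable.comp ((measurable_randProd n).comp hX))

omit [Nontrivial E] in
theorem measurableSet_le_negligible (U : Submodule ℝ E) {α : Type*} [MeasurableSpace α]
    {X : α → ℕ → E →L[ℝ] E} {A : α → E →L[ℝ] E} (hX : Measurable X) (hA : Measurable A) :
    MeasurableSet {a | U.map (A a : E →ₗ[ℝ] E) ≤ negligible (X a)} := by
  have h : {a | U.map (A a : E →ₗ[ℝ] E) ≤ negligible (X a)} =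
      ⋂ i, {a | A a ((finBasis ℝ U i : U) : E) ∈ negligible (X a)} := by
    ext a
    rw [mem_iInter, mem_ofPred_eq, Submodule.map_le_iff_le_comap, le_iff_forall_basis U]
    rfl
  rw [h]
  exact MeasurableSet.iInter fun i => measurableSet_mem_negligible
    (V := fun a => A a ((finBasis ℝ U i : U) : E)) hX
    (measurable_eval.comp (hA.prodMk measurable_const))

variable (μ) in
/-- **No vector is negligible.** -/
theorem ae_not_negligible (hμ : ∀ᵐ A ∂μ, A ∈ unitDet E) (hsi : StronglyIrreducible μ.support)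
    {v : E} (hv : v ≠ 0) :
    ∀ᵐ x ∂(Measure.infinitePi fun _ : ℕ => μ), v ∉ negligible x := by
  classical
  set π := Measure.infinitePi fun _ : ℕ => μ with hπ
  set p : Submodule ℝ E → ℝ≥0∞ := fun U => π {x | U ≤ negligible x} with hp
  have hpm : ∀ U : Submodule ℝ E, MeasurableSet {x : ℕ → E →L[ℝ] E | U ≤ negligible x} :=
      fun U => by
    rw [show {x : ℕ → E →L[ℝ] E | U ≤ negligible x} =
      ⋂ i, {x | ((finBasis ℝ U i : U) : E) ∈ negligible x} by
        ext x; rw [mem_iInter, mem_ofPred_eq, le_iff_forall_basis U]; rfl]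
    exact MeasurableSet.iInter fun i => measurableSet_mem_negligible
      (X := fun x : ℕ → E →L[ℝ] E => x) (V := fun _ => ((finBasis ℝ U i : U) : E))
      measurable_id measurable_const
  have hptop : p ⊤ = 0 := measure_eq_zero_iff_ae_notMem.2 <|
    (ae_all_unitDet μ hμ).mono fun x hx h => negligible_ne_top hx (top_le_iff.1 h)
  refine measure_eq_zero_iff_ae_notMem.1 (?_ : π {x | v ∈ negligible x} = 0)
  by_contra hpos
  set Q : ℕ → Prop := fun k => ∃ U : Submodule ℝ E, finrank ℝ U = k ∧ p U ≠ 0 with hQ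
  have hline : Q (finrank ℝ (Submodule.span ℝ {v})) := ⟨_, rfl, by
    simpa only [hp, Submodule.span_singleton_le_iff_mem] using hpos⟩
  set k := Nat.findGreatest Q (finrank ℝ E) with hk
  obtain ⟨U₀, hU₀, hU₀p⟩ : Q k := Nat.findGreatest_spec (Submodule.finrank_le _) hline
  have hk0 : 0 < k := lt_of_lt_of_le (by rw [finrank_span_singleton hv]; exact one_pos)
    (Nat.le_findGreatest (Submodule.finrank_le _) hline)
  have hgt : ∀ W : Submodule ℝ E, k < finrank ℝ W → p W = 0 := fun W hW => by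
    by_contra h
    exact Nat.findGreatest_is_greatest hW (Submodule.finrank_le W) ⟨W, rfl, h⟩
  have hkd : k < finrank ℝ E := by
    refine hU₀ ▸ Submodule.finrank_lt fun h => hU₀p ?_
    rw [h]
    exact hptop
  have hsum : ∀ S : Finset (Submodule ℝ E), (∀ U ∈ S, finrank ℝ U = k) →
      ∑ U ∈ S, p U ≤ 1 := fun S hS => by
    have h1 : ∑ U ∈ S, p U = π (⋃ U ∈ S, {x | U ≤ negligible x}) := by
      refine (measure_biUnion_finset₀ (fun U hU W hW hne => ?_)
        fun U _ => (hpm U).nullMeasurableSet).symm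
      refine measure_mono_null (fun x hx => ?_) (hgt (U ⊔ W) ?_)
      · exact sup_le (show U ≤ negligible x from hx.1) (show W ≤ negligible x from hx.2)
      · refine (hS U hU).symm.trans_lt (Submodule.finrank_lt_finrank_of_lt
          (lt_of_le_of_ne le_sup_left fun h => hne ?_))
        exact (Submodule.eq_of_le_of_finrank_le (h ▸ le_sup_right)
          (by rw [hS U hU, hS W hW])).symm
    exact h1 ▸ prob_le_one
  obtain ⟨F, m, hm0, hmtop, hFne, hmax, hF⟩ :=
    exists_max_finset (fun U : Submodule ℝ E => finrank ℝ U = k) p hsum hU₀ hU₀p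
  refine hsi ⟨F, hFne, fun W hW => ?_, ?_⟩
  · obtain ⟨hWk, -⟩ := (hF W).1 hW
    exact ⟨fun h => by rw [h, finrank_bot] at hWk; omega,
      fun h => by rw [h, finrank_top] at hWk; omega⟩
  have hrec : ∀ U, p U = ∫⁻ A, p (U.map (A : E →ₗ[ℝ] E)) ∂μ := fun U => by
    have hS : MeasurableSet {q : (E →L[ℝ] E) × (ℕ → E →L[ℝ] E) |
        U.map (q.1 : E →ₗ[ℝ] E) ≤ negligible q.2} :=
      measurableSet_le_negligible U measurable_snd measurable_fst
    have heq : {x : ℕ → E →L[ℝ] E | U ≤ negligible x} =ᵐ[π] (fun x => (x 0, shift x)) ⁻¹'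
        {q : (E →L[ℝ] E) × (ℕ → E →L[ℝ] E) | U.map (q.1 : E →ₗ[ℝ] E) ≤ negligible q.2} := by
      refine eventuallyEq_set.2 ((ae_all_unitDet μ hμ).mono fun x hx => ?_)
      simp only [mem_preimage, mem_ofPred_eq, Submodule.map_le_iff_le_comap]
      exact ⟨fun h u hu => (mem_negligible_iff_shift hx).1 (h hu),
        fun h u hu => (mem_negligible_iff_shift hx).2 (h hu)⟩
    show π _ = _
    rw [measure_congr heq, ← Measure.map_apply ((measurable_pi_apply 0).prodMk measurable_shift) hS,
      hπ, map_split_infinitePi μ, Measure.prod_apply hS]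
    rfl
  have hclosed : IsClosed (⋂ U ∈ F, ⋃ W ∈ F, ⋂ u ∈ U,
      (fun A : E →L[ℝ] E => A u) ⁻¹' (W : Set E)) :=
    isClosed_biInter fun U _ => isClosed_biUnion_finset fun W _ => isClosed_biInter fun u _ =>
      W.closed_of_finiteDimensional.preimage (ContinuousLinearMap.apply ℝ E u).continuous
  have hdim : ∀ U : Submodule ℝ E, finrank ℝ U = k → ∀ A ∈ unitDet E,
      finrank ℝ (U.map (A : E →ₗ[ℝ] E)) = k := fun U hU A hA => by
    rw [← hU]
    exact (Submodule.equivMapOfInjective _ (injective_of_unitDet hA) U).finrank_eq.symm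
  have hmem : ∀ U ∈ F, ∀ᵐ A : E →L[ℝ] E ∂μ, U.map (A : E →ₗ[ℝ] E) ∈ F := fun U hU => by
    obtain ⟨hUk, hUm⟩ := (hF U).1 hU
    have hle : (fun A : E →L[ℝ] E => p (U.map (A : E →ₗ[ℝ] E))) ≤ᵐ[μ] fun _ => m :=
      hμ.mono fun A hA => hmax _ (hdim U hUk A hA)
    have heq := ae_eq_of_ae_le_of_lintegral_le hle
      (by rw [← hrec U, hUm]; exact hmtop) aemeasurable_const
      (by rw [← hrec U, hUm, lintegral_const, measure_univ, mul_one])
    filter_upwards [heq, hμ] with A hA hA1
    exact (hF _).2 ⟨hdim U hUk A hA1, hA⟩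
  have hae : (⋂ U ∈ F, ⋃ W ∈ F, ⋂ u ∈ U, (fun A : E →L[ℝ] E => A u) ⁻¹' (W : Set E)) ∈ ae μ := by
    refine (biInter_finset_mem F).2 fun U hU => (hmem U hU).mono fun A hA => ?_
    exact mem_iUnion₂.2 ⟨_, hA, mem_iInter₂.2 fun u hu => Submodule.mem_map_of_mem hu⟩
  intro A hA U hU
  have hA1 : A ∈ unitDet E := Measure.support_subset_of_isClosed isClosed_unitDet hμ hA
  have hAmem := mem_iInter₂.1 (Measure.support_subset_of_isClosed hclosed hae hA) U hU
  obtain ⟨W, hW, hAW⟩ := mem_iUnion₂.1 hAmem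
  have hsub : U.map (A : E →ₗ[ℝ] E) ≤ W := by
    rintro _ ⟨u, hu, rfl⟩
    exact mem_iInter₂.1 hAW u hu
  rwa [Submodule.eq_of_le_of_finrank_le hsub
    (by rw [hdim U ((hF U).1 hU).1 A hA1, ((hF W).1 hW).1])]

variable (μ) in
/-- **Rank one and directions.**  Almost surely every renormalised limit has rank one, the second
singular value is negligible and all the ratios `‖Q n v‖ / ‖Q n‖` converge. -/
theorem ae_collapse (hμ : ∀ᵐ A ∂μ, A ∈ unitDet E) (hsi : StronglyIrreducible μ.support)
    (hprox : Proximal μ.support) :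
    ∀ᵐ x ∂(Measure.infinitePi fun _ : ℕ => μ),
      (∀ (s : ℕ → ℕ) (H : E →L[ℝ] E), Tendsto s atTop atTop →
        Tendsto (fun j => ‖randProd (s j) x‖⁻¹ • randProd (s j) x) atTop (𝓝 H) → IsLine H) ∧
      Tendsto (fun n => (randProd n x : E →ₗ[ℝ] E).singularValues 1 / ‖randProd n x‖)
        atTop (𝓝 0) ∧
      ∀ v : E, ∃ r, 0 ≤ r ∧
        Tendsto (fun n => ‖randProd n x v‖ / ‖randProd n x‖) atTop (𝓝 r) := by
  have hμ' := adjLaw_unitDet μ hμ
  have hsi' := adjLaw_stronglyIrreducible μ hμ hsi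
  obtain ⟨ρ, hρ⟩ := exists_stationary (adjLaw μ) hμ'
  obtain ⟨e⟩ : Nonempty (OrthonormalBasis (Fin (finrank ℝ E)) ℝ E) := ⟨stdOrthonormalBasis ℝ E⟩
  have hnull : ∀ W : Submodule ℝ E, W ≠ ⊤ → mass (ρ : Measure (Sph E)) W = 0 := fun W hW =>
    stationary_mass_eq_zero (adjLaw μ) hμ' hsi' ρ hρ hW
  have h1 := ae_limit_isLine (adjLaw μ) hμ' hsi' (adjLaw_proximal μ hprox) hρ
  have h2 := ae_all_iff.2 fun q : Fin (finrank ℝ E) × Fin (finrank ℝ E) =>
    ae_tendsto_dirMean hμ' hρ (pairTest (e q.1) (e q.2))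
  have hadjm : Measurable fun (x : ℕ → E →L[ℝ] E) i => adjoint (x i) :=
    measurable_pi_lambda _ fun i => continuous_adjoint.measurable.comp (measurable_pi_apply i)
  rw [← map_adjoint_seq μ] at h1 h2
  filter_upwards [ae_of_ae_map hadjm.aemeasurable h1, ae_of_ae_map hadjm.aemeasurable h2,
    ae_all_unitDet μ hμ] with x hx1 hx2 hx
  simp only [leftProd_adjoint, norm_adjoint] at hx1 hx2
  have hpos : ∀ n, 0 < ‖randProd n x‖ := fun n =>
    one_pos.trans_le (one_le_norm (randProd_mem_unitDet hx n))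
  have hsub : ∀ (s : ℕ → ℕ) (H : E →L[ℝ] E), Tendsto s atTop atTop →
      Tendsto (fun j => ‖randProd (s j) x‖⁻¹ • randProd (s j) x) atTop (𝓝 H) →
      IsLine (adjoint H) ∧ ‖H‖ = 1 := fun s H hs hH => by
    refine ⟨hx1 s _ hs (((continuous_adjoint.tendsto H).comp hH).congr fun j => adjoint_smul _ _),
      tendsto_nhds_unique hH.norm (tendsto_const_nhds.congr fun j => ?_)⟩
    rw [norm_smul, norm_inv, norm_norm, inv_mul_cancel₀ (hpos _).ne']
  have hcpt : ∀ ns : ℕ → ℕ, ∃ (ms : ℕ → ℕ) (H : E →L[ℝ] E), StrictMono ms ∧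
      Tendsto (fun j => ‖randProd (ns (ms j)) x‖⁻¹ • randProd (ns (ms j)) x) atTop (𝓝 H) := by
    intro ns
    obtain ⟨H, -, ms, hms, hH⟩ := (isCompact_sphere (0 : E →L[ℝ] E) 1).tendsto_subseq
      (x := fun j => ‖randProd (ns j) x‖⁻¹ • randProd (ns j) x) fun j => by
        rw [mem_sphere_zero_iff_norm, norm_smul, norm_inv, norm_norm, inv_mul_cancel₀ (hpos _).ne']
    exact ⟨ms, H, hms, hH⟩
  refine ⟨fun s H hs hH => ?_, tendsto_of_subseq_tendsto fun ns hns => ?_, fun v => ?_⟩
  · simpa using (hsub s H hs hH).1.adjoint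
  · obtain ⟨ms, H, hms, hH⟩ := hcpt ns
    refine ⟨ms, ?_⟩
    have hline : IsLine H := by
      simpa using (hsub (fun j => ns (ms j)) H (hns.comp hms.tendsto_atTop) hH).1.adjoint
    have h := ((FA.Oseledets.continuous_singularValue 1).tendsto H).comp hH
    rw [singularValue_one_of_line hline] at h
    refine h.congr fun j => ?_
    rw [Function.comp_apply, singularValue_smul (inv_pos.2 (hpos _)), inv_mul_eq_div]
  choose c hc using hx2
  set L : ℝ := ∑ i, ∑ j, ⟪e i, v⟫ * ⟪e j, v⟫ * c (i, j)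
  have hL : Tendsto (fun n => dirMean (ρ : Measure (Sph E)) (pairTest v v)
      (adjoint (randProd n x))) atTop (𝓝 L) := by
    refine (tendsto_finsetSum Finset.univ fun i _ => tendsto_finsetSum Finset.univ fun j _ =>
      (hc (i, j)).const_mul (⟪e i, v⟫ * ⟪e j, v⟫)).congr fun n => ?_
    exact (dirMean_pairTest_eq_sum (ρ : Measure (Sph E)) e v (adjoint (randProd n x))).symm
  refine ⟨√L, Real.sqrt_nonneg L, tendsto_of_subseq_tendsto fun ns hns => ?_⟩
  obtain ⟨ms, H, hms, hH⟩ := hcpt ns
  refine ⟨ms, ?_⟩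
  have hs : Tendsto (fun j => ns (ms j)) atTop atTop := hns.comp hms.tendsto_atTop
  obtain ⟨hline, hH1⟩ := hsub _ H hs hH
  have hne : adjoint H ≠ 0 := fun h => by
    have := norm_adjoint H
    rw [h, norm_zero, hH1] at this
    exact zero_ne_one this
  have hval : L = ‖H v‖ ^ 2 := by
    refine tendsto_nhds_unique (hL.comp hs) ?_
    have h3 := tendsto_dirMean (ρ : Measure (Sph E)) hnull (pairTest v v)
      (Y := fun j => adjoint (randProd (ns (ms j)) x)) (fun j => inv_pos.2 (hpos _))
      (((continuous_adjoint.tendsto H).comp hH).congr fun j => adjoint_smul _ _) hne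
    rw [dirMean_pairTest_line hnull (by rw [norm_adjoint, hH1]) hline v, adjoint_adjoint] at h3
    exact h3
  rw [hval, Real.sqrt_sq (norm_nonneg _)]
  exact tendsto_norm_apply_normalised (Q := fun n => randProd n x) (s := fun j => ns (ms j)) hH v

variable (μ) in
/-- For each vector the limit of the ratio is almost surely positive. -/
theorem ae_ratio_pos (hμ : ∀ᵐ A ∂μ, A ∈ unitDet E) (hsi : StronglyIrreducible μ.support)
    (hprox : Proximal μ.support) {v : E} (hv : v ≠ 0) :
    ∀ᵐ x ∂(Measure.infinitePi fun _ : ℕ => μ), ∃ r, 0 < r ∧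
      Tendsto (fun n => ‖randProd n x v‖ / ‖randProd n x‖) atTop (𝓝 r) := by
  filter_upwards [ae_collapse μ hμ hsi hprox, ae_not_negligible μ hμ hsi hv] with x hx hxn
  obtain ⟨r, hr0, hr⟩ := hx.2.2 v
  exact ⟨r, lt_of_le_of_ne hr0 fun h => hxn (by
    show Tendsto (fun n => ‖randProd n x v‖ / ‖randProd n x‖) atTop (𝓝 0)
    rw [h]; exact hr), hr⟩

end FA.GuivarchRaugi
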