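import Fermat.Agent.GuivarchRaugi.Adjoint
import Fermat.Agent.Oseledets.Singular

/-!
# The sum of the two greatest exponents

For operators of determinant `±1` the product of the two greatest singular values is at least `1`,
so Kingman's theorem gives the growth rate of its logarithm.
-/

set_option autoImplicit false

noncomputable section

namespace FA.GuivarchRaugi

open MeasureTheory Filter Topology Module Set
open FA.FurstenbergLyapunov FA.FurstenbergKifer
open FA.Oseledets (topProd topProd_comp_le)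

variable {E : Type*} [NormedAddCommGroup E] [InnerProductSpace ℝ E] [FiniteDimensional ℝ E]

/-- `log` of the product of the two greatest singular values. -/
def logPair (A : E →L[ℝ] E) : ℝ := Real.log (topProd 2 (A : E →ₗ[ℝ] E))

theorem one_le_topProd_two (hd : 2 ≤ finrank ℝ E) {A : E →L[ℝ] E} (hA : A ∈ unitDet E) :
    1 ≤ topProd 2 (A : E →ₗ[ℝ] E) := by
  set σ := (A : E →ₗ[ℝ] E).singularValues
  have hσ : ∀ i, 0 ≤ σ i := LinearMap.singularValues_nonneg _
  by_contra h
  rw [not_le, show topProd 2 (A : E →ₗ[ℝ] E) = σ 0 * σ 1 by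
    simp [topProd, Finset.prod_range_succ, σ]] at h
  have h1 : σ 1 ≤ σ 0 := (A : E →ₗ[ℝ] E).singularValues_antitone zero_le_one
  have h2 : σ 1 ≤ 1 := by nlinarith [hσ 1]
  have h3 : ∏ i ∈ Finset.Ico 2 (finrank ℝ E), σ i ≤ 1 := Finset.prod_le_one (fun i _ => hσ i)
    fun i hi => ((A : E →ₗ[ℝ] E).singularValues_antitone
      (le_trans one_le_two (Finset.mem_Ico.1 hi).1)).trans h2
  have hdet := FA.Oseledets.prod_singularValues_eq_abs_det (A : E →ₗ[ℝ] E)
  rw [show |LinearMap.det (A : E →ₗ[ℝ] E)| = 1 from hA, topProd,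
    ← Finset.prod_range_mul_prod_Ico _ hd] at hdet
  have h4 : ∏ i ∈ Finset.range 2, σ i = σ 0 * σ 1 := by simp [Finset.prod_range_succ]
  have h5 : (σ 0 * σ 1) * ∏ i ∈ Finset.Ico 2 (finrank ℝ E), σ i ≤ σ 0 * σ 1 :=
    mul_le_of_le_one_right (mul_nonneg (hσ 0) (hσ 1)) h3
  rw [← h4] at h5 h
  linarith

theorem norm_eq_singularValue_zero [Nontrivial E] (A : E →L[ℝ] E) :
    ‖A‖ = (A : E →ₗ[ℝ] E).singularValues 0 := by
  refine le_antisymm (A.opNorm_le_bound (LinearMap.singularValues_nonneg _ _) fun v => ?_)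
    (FA.Oseledets.singularValue_le_norm A ⟨0, finrank_pos⟩)
  refine (sq_le_sq₀ (norm_nonneg _)
    (mul_nonneg (LinearMap.singularValues_nonneg _ _) (norm_nonneg _))).1 ?_
  rw [← ContinuousLinearMap.coe_coe, FA.Oseledets.norm_sq_map, mul_pow,
    ← (FA.Oseledets.svBasis (A : E →ₗ[ℝ] E)).sum_sq_inner_right v, Finset.mul_sum]
  exact Finset.sum_le_sum fun i _ => mul_le_mul_of_nonneg_right
    (pow_le_pow_left₀ (LinearMap.singularValues_nonneg _ _)
      (LinearMap.singularValues_antitone _ (Nat.zero_le _)) 2) (sq_nonneg _)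

theorem singularValue_one_pos (hd : 2 ≤ finrank ℝ E) {A : E →L[ℝ] E} (hA : A ∈ unitDet E) :
    0 < (A : E →ₗ[ℝ] E).singularValues 1 :=
  (LinearMap.injective_iff_forall_lt_finrank_singularValues_pos _).1 (injective_of_unitDet hA) 1 hd

theorem logPair_bounds [MeasurableSpace E] [BorelSpace E] (hd : 2 ≤ finrank ℝ E) {A : E →L[ℝ] E}
    (hA : A ∈ unitDet E) :
    0 ≤ logPair A ∧ logPair A ≤ 2 * Real.log ‖A‖ ∧
      logPair A = Real.log ‖A‖ + Real.log ((A : E →ₗ[ℝ] E).singularValues 1) := by
  have : Nontrivial E := Module.nontrivial_of_finrank_pos (R := ℝ) (by omega)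
  have h0 : 0 < ‖A‖ := one_pos.trans_le (one_le_norm hA)
  have h1 := singularValue_one_pos hd hA
  have e : logPair A = Real.log ‖A‖ + Real.log ((A : E →ₗ[ℝ] E).singularValues 1) := by
    rw [logPair, ← Real.log_mul h0.ne' h1.ne', norm_eq_singularValue_zero]
    simp [topProd, Finset.prod_range_succ]
  refine ⟨Real.log_nonneg (one_le_topProd_two hd hA), ?_, e⟩
  rw [e, two_mul]
  gcongr
  exact FA.Oseledets.singularValue_le_norm A ⟨1, hd⟩

theorem measurable_logPair : Measurable (logPair (E := E)) :=
  Real.measurable_log.comp (Finset.measurable_prod _ fun i _ =>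
    (FA.Oseledets.continuous_singularValue i).measurable)

variable [MeasurableSpace E] [BorelSpace E] [Nontrivial E]
  (μ : Measure (E →L[ℝ] E)) [IsProbabilityMeasure μ]

theorem integrable_logPair_randProd (hd : 2 ≤ finrank ℝ E) (hμ : ∀ᵐ A ∂μ, A ∈ unitDet E)
    (hint : Integrable (fun A => Real.log ‖A‖) μ) (n : ℕ) :
    Integrable (fun x => logPair (randProd n x)) (Measure.infinitePi fun _ : ℕ => μ) := by
  refine ((integrable_log_randProd μ hμ hint n).const_mul 2).mono'
    (measurable_logPair.comp (measurable_randProd n)).aestronglyMeasurable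
    ((ae_all_unitDet μ hμ).mono fun x hx => ?_)
  obtain ⟨h1, h2, -⟩ := logPair_bounds hd (randProd_mem_unitDet hx n)
  rwa [Real.norm_of_nonneg h1]

/-- **The rate of the two greatest singular values.** -/
theorem exists_pair_exponent (hd : 2 ≤ finrank ℝ E) (hμ : ∀ᵐ A ∂μ, A ∈ unitDet E)
    (hint : Integrable (fun A => Real.log ‖A‖) μ) :
    ∃ L : ℝ,
      (∀ᵐ x ∂(Measure.infinitePi fun _ : ℕ => μ),
        Tendsto (fun n : ℕ => logPair (randProd n x) / n) atTop (𝓝 L)) ∧
      Tendsto (fun n : ℕ =>
        (∫ x, logPair (randProd n x) ∂(Measure.infinitePi fun _ : ℕ => μ)) / n) atTop (𝓝 L) := by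
  classical
  set π := Measure.infinitePi fun _ : ℕ => μ
  set clip : (E →L[ℝ] E) → E →L[ℝ] E := fun A => if A ∈ unitDet E then A else 1 with hclip
  have hclipm : Measurable clip :=
    Measurable.ite isClosed_unitDet.measurableSet measurable_id measurable_const
  have hclipu : ∀ A, clip A ∈ unitDet E := fun A => by
    simp only [hclip]; split
    · assumption
    · exact one_mem_unitDet
  set g : ℕ → (ℕ → E →L[ℝ] E) → ℝ := fun n x => logPair (randProd n fun i => clip (x i)) with hg
  have hg0 : ∀ n x, 0 ≤ g n x := fun n x =>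
    (logPair_bounds hd (randProd_mem_unitDet (fun i => hclipu _) n)).1
  have hgm : ∀ n, Measurable (g n) := fun n => measurable_logPair.comp ((measurable_randProd n).comp
    (measurable_pi_lambda _ fun i => hclipm.comp (measurable_pi_apply i)))
  have hsame : ∀ᵐ x ∂π, ∀ n, g n x = logPair (randProd n x) :=
    (ae_all_unitDet μ hμ).mono fun x hx n => by
      simp only [hg, hclip, if_pos (hx _)]
  have hgi : ∀ n, Integrable (g n) π := fun n =>
    (integrable_logPair_randProd μ hd hμ hint n).congr (hsame.mono fun x hx => (hx n).symm)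
  have hsub : ∀ m n x, g (m + n) x ≤ g m x + g n (shift^[m] x) := by
    intro m n x
    set y : ℕ → E →L[ℝ] E := fun i => clip (x i) with hy
    have hy' : shift^[m] y = fun i => clip (shift^[m] x i) :=
      funext fun i => by rw [shift_iterate_apply, shift_iterate_apply]
    have hu1 := randProd_mem_unitDet (x := y) (fun i => hclipu _) m
    have hu2 := randProd_mem_unitDet (x := shift^[m] y)
      (fun i => by rw [hy']; exact hclipu _) n
    simp only [hg, ← hy, randProd_add]
    rw [← hy', add_comm]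
    simp only [logPair]
    rw [← Real.log_mul (one_pos.trans_le (one_le_topProd_two hd hu2)).ne'
      (one_pos.trans_le (one_le_topProd_two hd hu1)).ne']
    exact Real.log_le_log (one_pos.trans_le (one_le_topProd_two hd (mul_mem_unitDet hu2 hu1)))
      (topProd_comp_le hd (injective_of_unitDet hu1) _)
  obtain ⟨L, hlim, hmean, -⟩ := FA.Kingman.tendsto_subadditive_ergodic (ergodic_shift μ) hgm hgi
    hsub (C := 0) fun n => by simpa using integral_nonneg (μ := π) (hg0 n)
  refine ⟨L, ?_, hmean.congr fun n => by rw [integral_congr_ae (hsame.mono fun x hx => hx n)]⟩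
  filter_upwards [hlim, hsame] with x hx hxs
  exact hx.congr fun n => by rw [hxs n]

end FA.GuivarchRaugi
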