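import Fermat.Agent.FurstenbergKifer.Uniform
import Fermat.Agent.Oseledets.Singular

/-!
# Orthonormal pairs and the two exponents they see

An operator acts on orthonormal pairs by the process of Gram and Schmidt.  The two factors
`a = ‖A p.1‖` and `b` (the length of the orthogonal part of `A p.2`) multiply along products, and
`a * b` lies between a multiple of the product of the two greatest singular values and that
product.
-/

set_option autoImplicit false

noncomputable section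

namespace FA.GuivarchRaugi

open MeasureTheory Filter Topology Module Set Metric
open FA.FurstenbergLyapunov FA.FurstenbergKifer
open scoped RealInnerProductSpace

variable {E : Type*} [NormedAddCommGroup E] [InnerProductSpace ℝ E]

/-- The orthonormal pairs. -/
abbrev Frame (E : Type*) [NormedAddCommGroup E] [InnerProductSpace ℝ E] : Type _ :=
  {p : E × E // ‖p.1‖ = 1 ∧ ‖p.2‖ = 1 ∧ ⟪p.1, p.2⟫ = 0}

/-- The part of `y` orthogonal to `x`. -/
def rej (x y : E) : E := y - (⟪x, y⟫ / ‖x‖ ^ 2) • x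

theorem inner_rej {x : E} (hx : x ≠ 0) (y : E) : ⟪x, rej x y⟫ = 0 := by
  rw [rej, inner_sub_right, real_inner_smul_right, real_inner_self_eq_norm_sq,
    div_mul_cancel₀ _ (pow_ne_zero 2 (norm_ne_zero_iff.2 hx)), sub_self]

theorem rej_smul_left {a : ℝ} (ha : a ≠ 0) (x y : E) : rej (a • x) y = rej x y := by
  rcases eq_or_ne x 0 with rfl | hx
  · simp
  · rw [rej, rej, smul_smul, real_inner_smul_left, norm_smul, Real.norm_eq_abs, mul_pow, sq_abs]
    congr 2
    have := norm_ne_zero_iff.2 hx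
    field_simp

theorem rej_smul_right (b : ℝ) (x y : E) : rej x (b • y) = b • rej x y := by
  rw [rej, rej, smul_sub, smul_smul, real_inner_smul_right, mul_div_assoc]

theorem rej_add_smul {x : E} (hx : x ≠ 0) (c : ℝ) (y : E) : rej x (c • x + y) = rej x y := by
  rw [rej, rej, inner_add_right, real_inner_smul_right, real_inner_self_eq_norm_sq, add_div,
    mul_div_assoc, div_self (pow_ne_zero 2 (norm_ne_zero_iff.2 hx)), mul_one, add_smul]
  abel

theorem norm_rej_le {x : E} (hx : x ≠ 0) (y : E) : ‖rej x y‖ ≤ ‖y‖ := by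
  refine (sq_le_sq₀ (norm_nonneg _) (norm_nonneg _)).1 ?_
  have h : y = rej x y + (⟪x, y⟫ / ‖x‖ ^ 2) • x := by rw [rej, sub_add_cancel]
  nth_rw 2 [h]
  rw [norm_add_sq_real, real_inner_smul_right, real_inner_comm x, inner_rej hx]
  nlinarith [sq_nonneg ‖(⟪x, y⟫ / ‖x‖ ^ 2) • x‖]

/-- The area of a parallelogram bounds its projection on a plane. -/
theorem abs_det_le {e₀ e₁ : E} (he : ⟪e₀, e₁⟫ = 0) (x y : E) :
    |⟪e₀, x⟫ * ⟪e₁, y⟫ - ⟪e₁, x⟫ * ⟪e₀, y⟫| ≤ ‖e₀‖ * ‖e₁‖ * (‖x‖ * ‖y‖) := by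
  set w := ⟪e₁, y⟫ • e₀ - ⟪e₀, y⟫ • e₁ with hw
  have he' : ⟪e₁, e₀⟫ = 0 := by rw [real_inner_comm]; exact he
  have hw2 : ‖w‖ ^ 2 = ⟪e₁, y⟫ ^ 2 * ‖e₀‖ ^ 2 + ⟪e₀, y⟫ ^ 2 * ‖e₁‖ ^ 2 := by
    rw [hw, norm_sub_sq_real, real_inner_smul_left, real_inner_smul_right, he, norm_smul,
      norm_smul, mul_pow, mul_pow, Real.norm_eq_abs, Real.norm_eq_abs, sq_abs, sq_abs]
    ring
  set w' := (‖e₀‖ ^ 2 * ⟪e₁, y⟫) • e₁ + (‖e₁‖ ^ 2 * ⟪e₀, y⟫) • e₀ with hw'
  have h1 : ⟪w', y⟫ = ‖w‖ ^ 2 := by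
    rw [hw2, hw', inner_add_left, real_inner_smul_left, real_inner_smul_left]
    ring
  have h2 : ‖w'‖ ^ 2 = (‖e₀‖ * ‖e₁‖ * ‖w‖) ^ 2 := by
    rw [mul_pow _ ‖w‖, hw2, hw', norm_add_sq_real, real_inner_smul_left, real_inner_smul_right,
      he', norm_smul, norm_smul, mul_pow, mul_pow, Real.norm_eq_abs, Real.norm_eq_abs, sq_abs,
      sq_abs]
    ring
  rw [sq_eq_sq₀ (norm_nonneg _) (by positivity)] at h2
  have h3 : ‖w‖ ≤ ‖e₀‖ * ‖e₁‖ * ‖y‖ := by
    have h4 := real_inner_le_norm w' y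
    rw [h1, h2] at h4
    rcases (norm_nonneg w).eq_or_lt' with h | h
    · rw [h]; positivity
    · nlinarith
  calc |⟪e₀, x⟫ * ⟪e₁, y⟫ - ⟪e₁, x⟫ * ⟪e₀, y⟫| = |⟪w, x⟫| := by
        rw [hw, inner_sub_left, real_inner_smul_left, real_inner_smul_left]; ring_nf
    _ ≤ ‖w‖ * ‖x‖ := abs_real_inner_le_norm _ _
    _ ≤ ‖e₀‖ * ‖e₁‖ * ‖y‖ * ‖x‖ := mul_le_mul_of_nonneg_right h3 (norm_nonneg _)
    _ = _ := by ring

theorem exists_sub_eq_rej (x y : E) : ∃ c : ℝ, y = c • x + rej x y :=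
  ⟨⟪x, y⟫ / ‖x‖ ^ 2, by rw [rej, add_sub_cancel]⟩

open scoped Classical in
/-- The orthonormal pair of two independent vectors, or the given pair. -/
def frameOf [Nontrivial E] (base : Frame E) (z : E × E) : Frame E :=
  ⟨if z.1 ≠ 0 ∧ rej z.1 z.2 ≠ 0 then ((dir z.1 : E), (dir (rej z.1 z.2) : E)) else base.1, by
    by_cases h : z.1 ≠ 0 ∧ rej z.1 z.2 ≠ 0
    · rw [if_pos h]
      refine ⟨norm_eq_of_mem_sphere _, norm_eq_of_mem_sphere _, ?_⟩
      rw [coe_dir h.1, coe_dir h.2, real_inner_smul_left, real_inner_smul_right, inner_rej h.1]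
      ring
    · rw [if_neg h]; exact base.2⟩

theorem coe_frameOf [Nontrivial E] {base : Frame E} {z : E × E} (h₁ : z.1 ≠ 0)
    (h₂ : rej z.1 z.2 ≠ 0) :
    (frameOf base z : E × E) = ((dir z.1 : E), (dir (rej z.1 z.2) : E)) := by
  simp [frameOf, h₁, h₂]

variable [FiniteDimensional ℝ E]

instance : CompactSpace (Frame E) := isCompact_iff_compactSpace.1 <| by
  refine ((isCompact_closedBall (0 : E) 1).prod (isCompact_closedBall (0 : E) 1)).of_isClosed_subset
    ((isClosed_eq (continuous_fst.norm) continuous_const).inter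
      ((isClosed_eq (continuous_snd.norm) continuous_const).inter
        (isClosed_eq (continuous_fst.inner continuous_snd) continuous_const))) ?_
  intro p hp
  exact ⟨mem_closedBall_zero_iff.2 hp.1.le, mem_closedBall_zero_iff.2 hp.2.1.le⟩

theorem nonempty_frame (hd : 1 < finrank ℝ E) : Nonempty (Frame E) := by
  set b := stdOrthonormalBasis ℝ E
  exact ⟨⟨(b ⟨0, by omega⟩, b ⟨1, hd⟩), b.orthonormal.1 _, b.orthonormal.1 _,
    b.orthonormal.2 (by simp [Fin.ext_iff])⟩⟩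

omit [FiniteDimensional ℝ E] in
theorem frame_fst_ne_zero (p : Frame E) : p.1.1 ≠ 0 := fun h => by
  simpa [h] using p.2.1

variable [MeasurableSpace E] [BorelSpace E] [Nontrivial E]

/-- The action of an operator on orthonormal pairs. -/
def actFrame (A : E →L[ℝ] E) (p : Frame E) : Frame E := frameOf p (A p.1.1, A p.1.2)

/-- The two factors. -/
def fstFactor (A : E →L[ℝ] E) (p : Frame E) : ℝ := ‖A p.1.1‖

/-- The second factor. -/
def sndFactor (A : E →L[ℝ] E) (p : Frame E) : ℝ := ‖rej (A p.1.1) (A p.1.2)‖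

omit [Nontrivial E] in
theorem measurable_rej : Measurable fun z : E × E => rej z.1 z.2 :=
  measurable_snd.sub ((((continuous_fst.inner continuous_snd).measurable).div
    ((continuous_fst.norm.pow 2).measurable)).smul measurable_fst)

theorem measurable_frameOf {α : Type*} [MeasurableSpace α] {f : α → Frame E} {g : α → E × E}
    (hf : Measurable f) (hg : Measurable g) : Measurable fun a => frameOf (f a) (g a) := by
  classical
  refine Measurable.subtype_mk (Measurable.ite ?_ ?_ (measurable_subtype_coe.comp hf))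
  · exact (measurableSet_eq_fun hg.fst measurable_const).compl.inter
      (measurableSet_eq_fun (measurable_rej.comp hg) measurable_const).compl
  · exact (measurable_subtype_coe.comp (measurable_dir.comp hg.fst)).prodMk
      (measurable_subtype_coe.comp (measurable_dir.comp (measurable_rej.comp hg)))

omit [Nontrivial E] in
theorem measurable_images {α : Type*} [MeasurableSpace α] {f : α → E →L[ℝ] E} {g : α → Frame E}
    (hf : Measurable f) (hg : Measurable g) :
    Measurable fun a => (f a (g a).1.1, f a (g a).1.2) :=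
  (measurable_eval.comp (hf.prodMk (measurable_subtype_coe.comp hg).fst)).prodMk
    (measurable_eval.comp (hf.prodMk (measurable_subtype_coe.comp hg).snd))

theorem measurable_actFrame {α : Type*} [MeasurableSpace α] {f : α → E →L[ℝ] E} {g : α → Frame E}
    (hf : Measurable f) (hg : Measurable g) : Measurable fun a => actFrame (f a) (g a) :=
  measurable_frameOf hg (measurable_images hf hg)

omit [Nontrivial E] in
theorem measurable_log_fstFactor {α : Type*} [MeasurableSpace α] {f : α → E →L[ℝ] E}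
    {g : α → Frame E} (hf : Measurable f) (hg : Measurable g) :
    Measurable fun a => Real.log (fstFactor (f a) (g a)) :=
  Real.measurable_log.comp (continuous_norm.measurable.comp (measurable_images hf hg).fst)

omit [Nontrivial E] in
theorem measurable_log_sndFactor {α : Type*} [MeasurableSpace α] {f : α → E →L[ℝ] E}
    {g : α → Frame E} (hf : Measurable f) (hg : Measurable g) :
    Measurable fun a => Real.log (sndFactor (f a) (g a)) :=
  Real.measurable_log.comp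
    (continuous_norm.measurable.comp (measurable_rej.comp (measurable_images hf hg)))

omit [FiniteDimensional ℝ E] [MeasurableSpace E] [BorelSpace E] [Nontrivial E] in
theorem rej_image_eq (A : E →L[ℝ] E) (p : Frame E) :
    ∃ c : ℝ, rej (A p.1.1) (A p.1.2) = A (p.1.2 - c • p.1.1) ∧ 1 ≤ ‖p.1.2 - c • p.1.1‖ := by
  refine ⟨⟪A p.1.1, A p.1.2⟫ / ‖A p.1.1‖ ^ 2, by rw [rej, map_sub, map_smul], ?_⟩
  refine (one_le_sq_iff₀ (norm_nonneg _)).1 ?_
  rw [norm_sub_sq_real, real_inner_smul_right, real_inner_comm p.1.1 p.1.2, p.2.2.2,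
    norm_smul, p.2.1, p.2.2.1]
  nlinarith [sq_nonneg ‖⟪A p.1.1, A p.1.2⟫ / ‖A p.1.1‖ ^ 2‖]

omit [MeasurableSpace E] [BorelSpace E] [Nontrivial E] in
theorem images_ne_zero {A : E →L[ℝ] E} (hA : A ∈ unitDet E) (p : Frame E) :
    A p.1.1 ≠ 0 ∧ rej (A p.1.1) (A p.1.2) ≠ 0 := by
  refine ⟨apply_ne_zero hA (frame_fst_ne_zero p), ?_⟩
  obtain ⟨c, hc, h1⟩ := rej_image_eq A p
  rw [hc]
  exact apply_ne_zero hA (norm_pos_iff.1 (one_pos.trans_le h1))

omit [FiniteDimensional ℝ E] [MeasurableSpace E] [BorelSpace E] [Nontrivial E] in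
theorem continuous_rej_comp {α : Type*} [TopologicalSpace α] {f g : α → E} (hf : Continuous f)
    (hg : Continuous g) (h : ∀ a, f a ≠ 0) : Continuous fun a => rej (f a) (g a) :=
  hg.sub (((hf.inner hg).div₀ (hf.norm.pow 2)
    fun a => pow_ne_zero 2 (norm_ne_zero_iff.2 (h a))).smul hf)

omit [MeasurableSpace E] [BorelSpace E] in
theorem continuous_actFrame {A : E →L[ℝ] E} (hA : A ∈ unitDet E) :
    Continuous (actFrame A : Frame E → Frame E) := by
  refine Topology.IsInducing.subtypeVal.continuous_iff.2 ?_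
  have h1 : Continuous fun p : Frame E => A p.1.1 :=
    A.continuous.comp (continuous_fst.comp continuous_subtype_val)
  have h2 : Continuous fun p : Frame E => A p.1.2 :=
    A.continuous.comp (continuous_snd.comp continuous_subtype_val)
  have hr := continuous_rej_comp h1 h2 fun p => (images_ne_zero hA p).1
  refine ((continuous_subtype_val.comp (continuous_iff_continuousAt.2 fun p =>
    (continuousAt_dir (images_ne_zero hA p).1).comp_of_eq h1.continuousAt rfl)).prodMk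
    (continuous_subtype_val.comp (continuous_iff_continuousAt.2 fun p =>
    (continuousAt_dir (images_ne_zero hA p).2).comp_of_eq hr.continuousAt rfl))).congr fun p => ?_
  exact (coe_frameOf (z := (A p.1.1, A p.1.2)) (images_ne_zero hA p).1 (images_ne_zero hA p).2).symm

omit [MeasurableSpace E] [BorelSpace E] [Nontrivial E] in
theorem continuous_log_fstFactor {A : E →L[ℝ] E} (hA : A ∈ unitDet E) :
    Continuous fun p : Frame E => Real.log (fstFactor A p) :=
  (A.continuous.comp (continuous_fst.comp continuous_subtype_val)).norm.log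
    fun p => norm_ne_zero_iff.2 (images_ne_zero hA p).1

omit [MeasurableSpace E] [BorelSpace E] [Nontrivial E] in
theorem continuous_log_sndFactor {A : E →L[ℝ] E} (hA : A ∈ unitDet E) :
    Continuous fun p : Frame E => Real.log (sndFactor A p) :=
  (continuous_rej_comp (A.continuous.comp (continuous_fst.comp continuous_subtype_val))
    (A.continuous.comp (continuous_snd.comp continuous_subtype_val))
    fun p => (images_ne_zero hA p).1).norm.log
    fun p => norm_ne_zero_iff.2 (images_ne_zero hA p).2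

omit [FiniteDimensional ℝ E] [MeasurableSpace E] [BorelSpace E] in
/-- The images of two independent vectors and of their orthonormal pair. -/
theorem image_frameOf (B : E →L[ℝ] E) {base : Frame E} {z : E × E} (h₁ : z.1 ≠ 0)
    (h₂ : rej z.1 z.2 ≠ 0) (hB : B (frameOf base z).1.1 ≠ 0) :
    B z.1 = ‖z.1‖ • B (frameOf base z).1.1 ∧
      rej (B z.1) (B z.2) =
        ‖rej z.1 z.2‖ • rej (B (frameOf base z).1.1) (B (frameOf base z).1.2) := by
  set q := (frameOf base z).1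
  have hq1 : z.1 = ‖z.1‖ • q.1 := by
    rw [show q = _ from coe_frameOf h₁ h₂, coe_dir h₁, smul_smul,
      mul_inv_cancel₀ (norm_ne_zero_iff.2 h₁), one_smul]
  have hq2 : rej z.1 z.2 = ‖rej z.1 z.2‖ • q.2 := by
    rw [show q = _ from coe_frameOf h₁ h₂, coe_dir h₂, smul_smul,
      mul_inv_cancel₀ (norm_ne_zero_iff.2 h₂), one_smul]
  have e1 : B z.1 = ‖z.1‖ • B q.1 := by
    conv_lhs => rw [hq1]
    rw [map_smul]
  refine ⟨e1, ?_⟩
  obtain ⟨c, hc⟩ := exists_sub_eq_rej z.1 z.2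
  have e2 : B z.2 = (c * ‖z.1‖) • B q.1 + ‖rej z.1 z.2‖ • B q.2 := by
    rw [mul_smul, ← e1, ← map_smul, ← map_smul, ← hq2, ← map_add, ← hc]
  rw [e1, e2, rej_smul_left (norm_ne_zero_iff.2 h₁), rej_add_smul hB, rej_smul_right]

omit [MeasurableSpace E] [BorelSpace E] in
/-- **The action and the cocycle identities.** -/
theorem factor_mul {A B : E →L[ℝ] E} (hA : A ∈ unitDet E) (hB : B ∈ unitDet E) (p : Frame E) :
    actFrame (B * A) p = actFrame B (actFrame A p) ∧
      Real.log (fstFactor (B * A) p) =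
        Real.log (fstFactor A p) + Real.log (fstFactor B (actFrame A p)) ∧
      Real.log (sndFactor (B * A) p) =
        Real.log (sndFactor A p) + Real.log (sndFactor B (actFrame A p)) := by
  obtain ⟨h1, h2⟩ := images_ne_zero hA p
  set q := actFrame A p with hq
  obtain ⟨g1, g2⟩ := images_ne_zero hB q
  obtain ⟨e1, e2⟩ := image_frameOf B (base := p) (z := (A p.1.1, A p.1.2)) h1 h2 g1
  change B (A p.1.1) = ‖A p.1.1‖ • B q.1.1 at e1
  change rej (B (A p.1.1)) (B (A p.1.2)) =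
    ‖rej (A p.1.1) (A p.1.2)‖ • rej (B q.1.1) (B q.1.2) at e2
  have n1 := norm_pos_iff.2 h1
  have n2 := norm_pos_iff.2 h2
  refine ⟨Subtype.ext ?_, ?_, ?_⟩
  · obtain ⟨k1, k2⟩ := images_ne_zero (mul_mem_unitDet hB hA) p
    rw [actFrame, coe_frameOf k1 k2, actFrame, coe_frameOf g1 g2]
    simp only [mul_apply_eq_comp]
    rw [e2, e1, dir_smul n1 g1, dir_smul n2 g2]
  · rw [fstFactor, mul_apply_eq_comp, e1, norm_smul, norm_norm,
      Real.log_mul n1.ne' (norm_ne_zero_iff.2 g1)]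
    rfl
  · rw [sndFactor, mul_apply_eq_comp, mul_apply_eq_comp, e2, norm_smul, norm_norm,
      Real.log_mul n2.ne' (norm_ne_zero_iff.2 g2)]
    rfl

/-- Both logarithms are at most linear in `log ‖A‖`. -/
theorem exists_abs_log_factor_le :
    ∃ C : ℝ, 0 ≤ C ∧ ∀ A ∈ unitDet E, ∀ p : Frame E,
      |Real.log (fstFactor A p)| ≤ C + finrank ℝ E * Real.log ‖A‖ ∧
        |Real.log (sndFactor A p)| ≤ C + finrank ℝ E * Real.log ‖A‖ := by
  obtain ⟨C, hC0, hC⟩ := exists_abs_log_apply_le (E := E)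
  refine ⟨C, hC0, fun A hA p => ⟨hC A hA _ p.2.1, ?_⟩⟩
  obtain ⟨c, hc, h1⟩ := rej_image_eq A p
  have hpos := norm_pos_iff.2 (images_ne_zero hA p).2
  have hlogA : 0 ≤ Real.log ‖A‖ := Real.log_nonneg (one_le_norm hA)
  have hd : (1 : ℝ) ≤ finrank ℝ E := Nat.one_le_cast.2 finrank_pos
  have hup : Real.log (sndFactor A p) ≤ Real.log ‖A‖ := by
    refine Real.log_le_log hpos ((norm_rej_le (images_ne_zero hA p).1 _).trans ?_)
    simpa [p.2.2.1] using A.le_opNorm p.1.2
  set r := p.1.2 - c • p.1.1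
  have hr : r ≠ 0 := norm_pos_iff.1 (one_pos.trans_le h1)
  have hlow := (abs_le.1 (hC A hA (‖r‖⁻¹ • r) (by
    rw [norm_smul, norm_inv, norm_norm, inv_mul_cancel₀ (norm_ne_zero_iff.2 hr)]))).1
  rw [map_smul, norm_smul, norm_inv, norm_norm, ← hc, Real.log_mul
    (inv_ne_zero (norm_ne_zero_iff.2 hr)) hpos.ne', Real.log_inv] at hlow
  have := Real.log_nonneg h1
  rw [abs_le]
  constructor
  · rw [sndFactor]; linarith
  · nlinarith

omit [MeasurableSpace E] [BorelSpace E] [Nontrivial E] in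
/-- The product of the factors is at most `‖A‖` times the second singular value. -/
theorem factor_mul_le (hd : 1 < finrank ℝ E) {A : E →L[ℝ] E} (hA : A ∈ unitDet E) (p : Frame E) :
    fstFactor A p * sndFactor A p ≤ ‖A‖ * (A : E →ₗ[ℝ] E).singularValues 1 := by
  set b := FA.Oseledets.svBasis (A : E →ₗ[ℝ] E)
  set s₀ := ⟪b ⟨0, by omega⟩, p.1.1⟫
  set t₀ := ⟪b ⟨0, by omega⟩, p.1.2⟫
  obtain ⟨α, β, hαβ, horth⟩ : ∃ α β : ℝ, α ^ 2 + β ^ 2 = 1 ∧ α * s₀ + β * t₀ = 0 := by
    by_cases h : s₀ ^ 2 + t₀ ^ 2 = 0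
    · refine ⟨1, 0, by norm_num, ?_⟩
      nlinarith [sq_nonneg t₀]
    · refine ⟨-t₀ / √(s₀ ^ 2 + t₀ ^ 2), s₀ / √(s₀ ^ 2 + t₀ ^ 2), ?_, ?_⟩
      · rw [div_pow, div_pow, Real.sq_sqrt (by positivity)]
        field_simp
        ring
      · ring
  set w := α • p.1.1 + β • p.1.2
  set w' := (-β) • p.1.1 + α • p.1.2
  have hunit : ∀ a c : ℝ, a ^ 2 + c ^ 2 = 1 → ‖a • p.1.1 + c • p.1.2‖ = 1 := fun a c h => by
    refine (sq_eq_sq₀ (norm_nonneg _) zero_le_one).1 ?_
    rw [norm_add_sq_real, real_inner_smul_left, real_inner_smul_right, p.2.2.2, norm_smul,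
      norm_smul, p.2.1, p.2.2.1, mul_one, mul_one, Real.norm_eq_abs, Real.norm_eq_abs, sq_abs,
      sq_abs, mul_zero, mul_zero]
    linarith
  have hw : ‖w‖ = 1 := hunit α β hαβ
  have hw' : ‖w'‖ = 1 := hunit (-β) α (by rw [neg_sq]; linarith)
  have hAw : ‖A w‖ ≤ (A : E →ₗ[ℝ] E).singularValues 1 := by
    refine (sq_le_sq₀ (norm_nonneg _) (LinearMap.singularValues_nonneg _ _)).1 ?_
    rw [← ContinuousLinearMap.coe_coe, FA.Oseledets.norm_sq_map,
      show (A : E →ₗ[ℝ] E).singularValues 1 ^ 2 =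
        (A : E →ₗ[ℝ] E).singularValues 1 ^ 2 * ‖w‖ ^ 2 by rw [hw, one_pow, mul_one],
      ← b.sum_sq_inner_right w, Finset.mul_sum]
    refine Finset.sum_le_sum fun i _ => ?_
    rcases Nat.eq_zero_or_pos i.val with hi | hi
    · have h0 : ⟪b i, w⟫ = 0 := by
        rw [show i = ⟨0, by omega⟩ from Fin.ext hi, inner_add_right, real_inner_smul_right,
          real_inner_smul_right]
        exact horth
      simp [b, h0]
    · exact mul_le_mul_of_nonneg_right (pow_le_pow_left₀ (LinearMap.singularValues_nonneg _ _)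
        (LinearMap.singularValues_antitone _ hi) 2) (sq_nonneg _)
  obtain ⟨h1, h2⟩ := images_ne_zero hA p
  set a := A p.1.1 with ha
  set r := rej a (A p.1.2) with hr
  obtain ⟨c, hc⟩ := exists_sub_eq_rej a (A p.1.2)
  rw [← hr] at hc
  have har : ⟪a, r⟫ = 0 := inner_rej h1 _
  have hra : ⟪r, a⟫ = 0 := by rw [real_inner_comm]; exact har
  have key := abs_det_le (e₀ := a) (e₁ := r) har (A w) (A w')
  have eAw : A w = (α + β * c) • a + β • r := by
    rw [map_add, map_smul, map_smul, ← ha, hc, smul_add, smul_smul, ← add_assoc, ← add_smul]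
  have eAw' : A w' = (-β + α * c) • a + α • r := by
    rw [map_add, map_smul, map_smul, ← ha, hc, smul_add, smul_smul, ← add_assoc, ← add_smul]
  have hdet : ⟪a, A w⟫ * ⟪r, A w'⟫ - ⟪r, A w⟫ * ⟪a, A w'⟫ = (‖a‖ * ‖r‖) ^ 2 := by
    simp only [eAw, eAw', inner_add_right, real_inner_smul_right, har, hra,
      real_inner_self_eq_norm_sq]
    linear_combination ‖a‖ ^ 2 * ‖r‖ ^ 2 * hαβ
  rw [hdet, abs_of_nonneg (sq_nonneg _)] at key
  have hpos : 0 < ‖a‖ * ‖r‖ := mul_pos (norm_pos_iff.2 h1) (norm_pos_iff.2 h2)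
  have hb : ‖A w'‖ ≤ ‖A‖ := by simpa [hw'] using A.le_opNorm w'
  show ‖a‖ * ‖r‖ ≤ _
  have h3 : ‖a‖ * ‖r‖ ≤ ‖A w‖ * ‖A w'‖ := le_of_mul_le_mul_left (by rwa [← sq]) hpos
  exact h3.trans ((mul_comm _ _).trans_le
    (mul_le_mul hb hAw (norm_nonneg _) (norm_nonneg _)))

omit [MeasurableSpace E] [BorelSpace E] in
/-- Two vectors of the unit ball see the product of the two greatest singular values. -/
theorem topProd_mul_le (hd : 1 < finrank ℝ E) {A : E →L[ℝ] E} (hA : A ∈ unitDet E)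
    (base : Frame E) {z : E × E} (hz₁ : ‖z.1‖ ≤ 1) (hz₂ : ‖z.2‖ ≤ 1) {d : ℝ}
    (hd' : d = |⟪FA.Oseledets.svBasis (A : E →ₗ[ℝ] E) ⟨0, by omega⟩, z.1⟫ *
        ⟪FA.Oseledets.svBasis (A : E →ₗ[ℝ] E) ⟨1, hd⟩, z.2⟫ -
      ⟪FA.Oseledets.svBasis (A : E →ₗ[ℝ] E) ⟨1, hd⟩, z.1⟫ *
        ⟪FA.Oseledets.svBasis (A : E →ₗ[ℝ] E) ⟨0, by omega⟩, z.2⟫|)
    (hpos : 0 < d) :
    FA.Oseledets.topProd 2 (A : E →ₗ[ℝ] E) * d ≤
      fstFactor A (frameOf base z) * sndFactor A (frameOf base z) := by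
  set b := FA.Oseledets.svBasis (A : E →ₗ[ℝ] E)
  set i₀ : Fin (finrank ℝ E) := ⟨0, by omega⟩
  set i₁ : Fin (finrank ℝ E) := ⟨1, hd⟩
  have h₁ : z.1 ≠ 0 := fun h => by
    rw [hd', h] at hpos
    simp at hpos
  have h₂ : rej z.1 z.2 ≠ 0 := fun h => by
    obtain ⟨c, hc⟩ := exists_sub_eq_rej z.1 z.2
    rw [h, add_zero] at hc
    rw [hd', hc] at hpos
    simp only [real_inner_smul_right] at hpos
    ring_nf at hpos
    simp at hpos
  obtain ⟨g1, g2⟩ := images_ne_zero hA (frameOf base z)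
  obtain ⟨e1, e2⟩ := image_frameOf A h₁ h₂ g1
  have horth : ⟪A (b i₀), A (b i₁)⟫ = 0 := by
    rw [← ContinuousLinearMap.coe_coe, FA.Oseledets.inner_map_svBasis,
      orthonormal_iff_ite.1 b.orthonormal, if_neg (by simp [i₀, i₁, Fin.ext_iff]), mul_zero]
  obtain ⟨c, hc⟩ := exists_sub_eq_rej (A z.1) (A z.2)
  have key := abs_det_le horth (A z.1) (rej (A z.1) (A z.2))
  have hrw : ⟪A (b i₀), A z.1⟫ * ⟪A (b i₁), rej (A z.1) (A z.2)⟫ -
      ⟪A (b i₁), A z.1⟫ * ⟪A (b i₀), rej (A z.1) (A z.2)⟫ =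
      ⟪A (b i₀), A z.1⟫ * ⟪A (b i₁), A z.2⟫ - ⟪A (b i₁), A z.1⟫ * ⟪A (b i₀), A z.2⟫ := by
    conv_rhs => rw [hc]
    simp only [inner_add_right, real_inner_smul_right]
    ring
  have hin : ∀ (i : Fin (finrank ℝ E)) (v : E),
      ⟪A (b i), A v⟫ = (A : E →ₗ[ℝ] E).singularValues i ^ 2 * ⟪b i, v⟫ :=
    fun i v => FA.Oseledets.inner_map_svBasis _ i v
  have hnb : ∀ i : Fin (finrank ℝ E), ‖A (b i)‖ = (A : E →ₗ[ℝ] E).singularValues i :=
    fun i => FA.Oseledets.norm_map_svBasis _ i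
  set σ₀ := (A : E →ₗ[ℝ] E).singularValues 0
  set σ₁ := (A : E →ₗ[ℝ] E).singularValues 1
  have hσ : FA.Oseledets.topProd 2 (A : E →ₗ[ℝ] E) = σ₀ * σ₁ := by
    simp [FA.Oseledets.topProd, Finset.prod_range_succ, σ₀, σ₁]
  have hσpos : 0 < σ₀ * σ₁ := by
    have h := (LinearMap.injective_iff_forall_lt_finrank_singularValues_pos
      (A : E →ₗ[ℝ] E)).1 (injective_of_unitDet hA)
    exact mul_pos (h 0 (by omega)) (h 1 hd)
  rw [hrw, hin, hin, hin, hin, hnb, hnb, e2, e1, norm_smul, norm_smul, norm_norm, norm_norm] at key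
  rw [show σ₀ ^ 2 * ⟪b i₀, z.1⟫ * (σ₁ ^ 2 * ⟪b i₁, z.2⟫) -
    σ₁ ^ 2 * ⟪b i₁, z.1⟫ * (σ₀ ^ 2 * ⟪b i₀, z.2⟫) = (σ₀ * σ₁) ^ 2 *
      (⟪b i₀, z.1⟫ * ⟪b i₁, z.2⟫ - ⟪b i₁, z.1⟫ * ⟪b i₀, z.2⟫) by ring, abs_mul,
    abs_of_nonneg (sq_nonneg _), ← hd', sq, mul_assoc] at key
  have h3 := le_of_mul_le_mul_left key hσpos
  rw [hσ]
  refine h3.trans ?_
  rw [mul_mul_mul_comm]
  refine mul_le_of_le_one_left (mul_nonneg (norm_nonneg _) (norm_nonneg _))
    (mul_le_one₀ hz₁ (norm_nonneg _) ((norm_rej_le h₁ _).trans hz₂))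

end FA.GuivarchRaugi
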