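import Fermat.Agent.GuivarchRaugi.Slab
import Fermat.Agent.GuivarchRaugi.Exponents

/-!
# A stationary law on orthonormal pairs

The averages of the walk started from the law of `exists_frame_law` have a stationary limit, for
which the mean of `log (a * b)` is at least the sum of the two greatest exponents.
-/

set_option autoImplicit false

noncomputable section

namespace FA.GuivarchRaugi

open MeasureTheory Filter Topology Module Set Metric
open FA.FurstenbergLyapunov FA.FurstenbergKifer
open scoped RealInnerProductSpace ENNReal BoundedContinuousFunction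

variable {E : Type*} [NormedAddCommGroup E] [InnerProductSpace ℝ E] [FiniteDimensional ℝ E]
  [MeasurableSpace E] [BorelSpace E] [Nontrivial E]

variable (μ : Measure (E →L[ℝ] E)) [IsProbabilityMeasure μ]

/-- One step of the walk on orthonormal pairs. -/
def stepFrame (η : Measure (Frame E)) : Measure (Frame E) :=
  (μ.prod η).map fun q => actFrame q.1 q.2

theorem isProbabilityMeasure_stepFrame (η : Measure (Frame E)) [IsProbabilityMeasure η] :
    IsProbabilityMeasure (stepFrame μ η) :=
  Measure.isProbabilityMeasure_map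
    (measurable_actFrame measurable_fst measurable_snd).aemeasurable

theorem isProbabilityMeasure_stepFrame_iterate (η : Measure (Frame E)) [IsProbabilityMeasure η]
    (j : ℕ) : IsProbabilityMeasure ((stepFrame μ)^[j] η) := by
  induction j with
  | zero => assumption
  | succ j ih => rw [Function.iterate_succ_apply']; exact isProbabilityMeasure_stepFrame μ _

/-- The skew product over the shift. -/
def skewFrame (q : Frame E × (ℕ → E →L[ℝ] E)) : Frame E × (ℕ → E →L[ℝ] E) :=
  (actFrame (q.2 0) q.1, shift q.2)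

theorem measurable_skewFrame : Measurable (skewFrame (E := E)) :=
  (measurable_actFrame ((measurable_pi_apply 0).comp measurable_snd) measurable_fst).prodMk
    (measurable_shift.comp measurable_snd)

/-- The skew product moves the pairs by one step of the walk. -/
theorem map_skewFrame (η : Measure (Frame E)) [IsProbabilityMeasure η] :
    (η.prod (Measure.infinitePi fun _ : ℕ => μ)).map skewFrame =
      (stepFrame μ η).prod (Measure.infinitePi fun _ : ℕ => μ) := by
  have := isProbabilityMeasure_stepFrame μ η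
  refine (Measure.prod_eq fun S B hS hB => ?_).symm
  set π := Measure.infinitePi fun _ : ℕ => μ with hπ
  have hm : Measurable fun q : (E →L[ℝ] E) × Frame E => actFrame q.1 q.2 :=
    measurable_actFrame measurable_fst measurable_snd
  have hsec : ∀ p : Frame E, π {x | actFrame (x 0) p ∈ S ∧ shift x ∈ B} =
      μ {A | actFrame A p ∈ S} * π B := fun p => by
    have hmA : MeasurableSet {A : E →L[ℝ] E | actFrame A p ∈ S} :=
      (hm.comp (measurable_id.prodMk measurable_const)) hS
    rw [← Measure.prod_prod, hπ, ← map_split_infinitePi μ,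
      Measure.map_apply ((measurable_pi_apply 0).prodMk measurable_shift) (hmA.prod hB)]
    rfl
  have hswap : ∫⁻ p, μ {A | actFrame A p ∈ S} ∂η = stepFrame μ η S := by
    rw [stepFrame, Measure.map_apply hm hS, Measure.prod_apply_symm (hm hS)]
    rfl
  rw [Measure.map_apply measurable_skewFrame (hS.prod hB),
    Measure.prod_apply (measurable_skewFrame (hS.prod hB))]
  show ∫⁻ p, π {x | actFrame (x 0) p ∈ S ∧ shift x ∈ B} ∂η = stepFrame μ η S * π B
  rw [lintegral_congr hsec, lintegral_mul_const _ ?_, hswap]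
  exact measurable_measure_prodMk_right (hm hS)

/-- `log (a * b)`. -/
def frameLog (A : E →L[ℝ] E) (p : Frame E) : ℝ :=
  Real.log (fstFactor A p) + Real.log (sndFactor A p)

omit [Nontrivial E] in
theorem measurable_frameLog {α : Type*} [MeasurableSpace α] {f : α → E →L[ℝ] E}
    {g : α → Frame E} (hf : Measurable f) (hg : Measurable g) :
    Measurable fun a => frameLog (f a) (g a) :=
  (measurable_log_fstFactor hf hg).add (measurable_log_sndFactor hf hg)

theorem exists_abs_frameLog_le :
    ∃ C : ℝ, 0 ≤ C ∧ ∀ A ∈ unitDet E, ∀ p : Frame E,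
      |frameLog A p| ≤ C + 2 * finrank ℝ E * Real.log ‖A‖ := by
  obtain ⟨C, hC0, hC⟩ := exists_abs_log_factor_le (E := E)
  refine ⟨2 * C, by positivity, fun A hA p => ?_⟩
  obtain ⟨h1, h2⟩ := hC A hA p
  refine (abs_add_le _ _).trans ?_
  linarith

theorem integrable_frameLog_randProd (hμ : ∀ᵐ A ∂μ, A ∈ unitDet E)
    (hint : Integrable (fun A => Real.log ‖A‖) μ) (n : ℕ) (η : Measure (Frame E))
    [IsProbabilityMeasure η] :
    Integrable (fun q : Frame E × (ℕ → E →L[ℝ] E) => frameLog (randProd n q.2) q.1)
      (η.prod (Measure.infinitePi fun _ : ℕ => μ)) := by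
  obtain ⟨C, -, hC⟩ := exists_abs_frameLog_le (E := E)
  refine (((integrable_const C).add ((integrable_log_randProd μ hμ hint n).const_mul
    (2 * (finrank ℝ E : ℝ)))).comp_snd η).mono'
    (measurable_frameLog ((measurable_randProd n).comp measurable_snd)
      measurable_fst).aestronglyMeasurable ?_
  filter_upwards [Measure.quasiMeasurePreserving_snd.ae (ae_all_unitDet μ hμ)] with q hq
  exact hC _ (randProd_mem_unitDet hq n) q.1

omit [FiniteDimensional ℝ E] [MeasurableSpace E] [BorelSpace E] [Nontrivial E] in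
theorem randProd_one (x : ℕ → E →L[ℝ] E) : randProd 1 x = x 0 := by
  simp [randProd, FA.Kingman.cocycleProd]

/-- The mean over the first step. -/
theorem integral_frameLog_one (hμ : ∀ᵐ A ∂μ, A ∈ unitDet E)
    (hint : Integrable (fun A => Real.log ‖A‖) μ) (η : Measure (Frame E))
    [IsProbabilityMeasure η] :
    ∫ q, frameLog (q.2 0) q.1 ∂(η.prod (Measure.infinitePi fun _ : ℕ => μ)) =
      ∫ p, ∫ A, frameLog A p ∂μ ∂η := by
  have h : Integrable (fun q : Frame E × (ℕ → E →L[ℝ] E) => frameLog (q.2 0) q.1)
      (η.prod (Measure.infinitePi fun _ : ℕ => μ)) := by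
    simpa only [randProd_one] using integrable_frameLog_randProd μ hμ hint 1 η
  rw [integral_prod _ h]
  refine integral_congr_ae (.of_forall fun p => ?_)
  show ∫ x : ℕ → E →L[ℝ] E, frameLog (x 0) p ∂_ = _
  have hm : Measurable fun A : E →L[ℝ] E => frameLog A p :=
    measurable_frameLog measurable_id measurable_const
  conv_rhs => rw [← (measurePreserving_eval_infinitePi (fun _ : ℕ => μ) 0).map_eq]
  exact (integral_map (φ := fun x : ℕ → E →L[ℝ] E => x 0) (f := fun A => frameLog A p)
    (measurable_pi_apply 0).aemeasurable hm.aestronglyMeasurable).symm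

/-- The mean over `n` steps is a sum over the laws of the walk. -/
theorem integral_frameLog_randProd (hμ : ∀ᵐ A ∂μ, A ∈ unitDet E)
    (hint : Integrable (fun A => Real.log ‖A‖) μ) (n : ℕ) (η : Measure (Frame E))
    [IsProbabilityMeasure η] :
    ∫ q, frameLog (randProd n q.2) q.1 ∂(η.prod (Measure.infinitePi fun _ : ℕ => μ)) =
      ∑ j ∈ Finset.range n, ∫ p, ∫ A, frameLog A p ∂μ ∂((stepFrame μ)^[j] η) := by
  induction n generalizing η with
  | zero =>
    have h0 : ∀ q : Frame E × (ℕ → E →L[ℝ] E), frameLog (randProd 0 q.2) q.1 = 0 := fun q => by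
      have h1 : q.1.1.1 ≠ 0 := frame_fst_ne_zero q.1
      have e : rej q.1.1.1 q.1.1.2 = q.1.1.2 := by rw [rej, q.1.2.2.2]; simp
      simp [frameLog, fstFactor, sndFactor, randProd, FA.Kingman.cocycleProd, q.1.2.1, e,
        q.1.2.2.1]
    simp [h0]
  | succ n ih =>
    set π := Measure.infinitePi fun _ : ℕ => μ with hπ
    have := isProbabilityMeasure_stepFrame μ η
    have h1 : Integrable (fun q : Frame E × (ℕ → E →L[ℝ] E) => frameLog (q.2 0) q.1) (η.prod π) :=
      by simpa only [randProd_one] using integrable_frameLog_randProd μ hμ hint 1 η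
    have hm : Measurable fun q : Frame E × (ℕ → E →L[ℝ] E) => frameLog (randProd n q.2) q.1 :=
      measurable_frameLog ((measurable_randProd n).comp measurable_snd) measurable_fst
    have h2 : Integrable (fun q : Frame E × (ℕ → E →L[ℝ] E) =>
        frameLog (randProd n (skewFrame q).2) (skewFrame q).1) (η.prod π) :=
      (integrable_map_measure hm.aestronglyMeasurable measurable_skewFrame.aemeasurable).1
        (by rw [map_skewFrame μ η]; exact integrable_frameLog_randProd μ hμ hint n _)
    have hsplit : (fun q : Frame E × (ℕ → E →L[ℝ] E) => frameLog (randProd (n + 1) q.2) q.1)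
        =ᵐ[η.prod π] fun q =>
          frameLog (q.2 0) q.1 + frameLog (randProd n (skewFrame q).2) (skewFrame q).1 := by
      filter_upwards [Measure.quasiMeasurePreserving_snd.ae (ae_all_unitDet μ hμ)] with q hq
      obtain ⟨-, e1, e2⟩ := factor_mul (hq 0)
        (randProd_mem_unitDet (x := shift q.2) (fun i => hq (i + 1)) n) q.1
      rw [randProd_succ]
      simp only [frameLog, skewFrame, e1, e2]
      ring
    rw [integral_congr_ae hsplit, integral_add h1 h2, integral_frameLog_one μ hμ hint η,
      ← integral_map (f := fun q : Frame E × (ℕ → E →L[ℝ] E) => frameLog (randProd n q.2) q.1)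
        measurable_skewFrame.aemeasurable hm.aestronglyMeasurable, map_skewFrame μ η,
      ih (stepFrame μ η), Finset.sum_range_succ', add_comm]
    rfl

omit [FiniteDimensional ℝ E] [MeasurableSpace E] [BorelSpace E] [Nontrivial E]
  [IsProbabilityMeasure μ] in
theorem continuous_mean_frame {φ : (E →L[ℝ] E) → Frame E → ℝ} (hμ : ∀ᵐ A ∂μ, A ∈ unitDet E)
    (hφm : ∀ p, AEStronglyMeasurable (fun A => φ A p) μ)
    (hφc : ∀ A ∈ unitDet E, Continuous (φ A)) {bound : (E →L[ℝ] E) → ℝ}
    (hb : Integrable bound μ) (hbd : ∀ p, ∀ᵐ A ∂μ, ‖φ A p‖ ≤ bound A) :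
    Continuous fun p => ∫ A, φ A p ∂μ :=
  continuous_of_dominated hφm hbd hb (hμ.mono fun A hA => hφc A hA)

/-- **A stationary law seeing two exponents.** -/
theorem exists_stationary_frame (hd : 1 < finrank ℝ E) (hμ : ∀ᵐ A ∂μ, A ∈ unitDet E)
    (hint : Integrable (fun A => Real.log ‖A‖) μ) {γ L : ℝ}
    (hγ : Tendsto (fun n : ℕ =>
      (∫ x, Real.log ‖randProd n x‖ ∂(Measure.infinitePi fun _ : ℕ => μ)) / n) atTop (𝓝 γ))
    (hL : Tendsto (fun n : ℕ =>
      (∫ x, logPair (randProd n x) ∂(Measure.infinitePi fun _ : ℕ => μ)) / n) atTop (𝓝 L)) :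
    ∃ η : Measure (Frame E), IsProbabilityMeasure η ∧ stepFrame μ η = η ∧
      L ≤ ∫ p, ∫ A, frameLog A p ∂μ ∂η := by
  set π := Measure.infinitePi fun _ : ℕ => μ with hπ
  obtain ⟨ρ, K, hρ, hK0, hK⟩ := exists_frame_law (E := E) hd
  obtain ⟨C, hC0, hC⟩ := exists_abs_log_factor_le (E := E)
  obtain ⟨C', -, hC'⟩ := exists_abs_frameLog_le (E := E)
  set G : Frame E →ᵇ ℝ := BoundedContinuousFunction.mkOfCompact
    ⟨fun p => ∫ A, frameLog A p ∂μ, continuous_mean_frame μ hμ
      (fun p => (measurable_frameLog measurable_id measurable_const).aestronglyMeasurable)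
      (fun A hA => (continuous_log_fstFactor hA).add (continuous_log_sndFactor hA))
      ((integrable_const C').add (hint.const_mul (2 * (finrank ℝ E : ℝ))))
      fun p => hμ.mono fun A hA => hC' A hA p⟩
  set U : (Frame E →ᵇ ℝ) → (Frame E →ᵇ ℝ) := fun φ => BoundedContinuousFunction.mkOfCompact
    ⟨fun p => ∫ A, φ (actFrame A p) ∂μ, continuous_mean_frame μ hμ
      (fun p => (φ.continuous.measurable.comp
        (measurable_actFrame measurable_id measurable_const)).aestronglyMeasurable)
      (fun A hA => φ.continuous.comp (continuous_actFrame hA))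
      (integrable_const ‖φ‖) fun p => .of_forall fun A => φ.norm_coe_le_norm _⟩
  have hU : ∀ (φ : Frame E →ᵇ ℝ) (η : Measure (Frame E)) [IsProbabilityMeasure η],
      ∫ p, φ p ∂(stepFrame μ η) = ∫ p, U φ p ∂η := fun φ η _ => by
    have hm : Measurable fun q : (E →L[ℝ] E) × Frame E => actFrame q.1 q.2 :=
      measurable_actFrame measurable_fst measurable_snd
    rw [stepFrame, integral_map hm.aemeasurable φ.continuous.aestronglyMeasurable,
      integral_prod_symm (fun q : (E →L[ℝ] E) × Frame E => φ (actFrame q.1 q.2))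
        (Integrable.of_bound (φ.continuous.measurable.comp hm).aestronglyMeasurable ‖φ‖
          (.of_forall fun _ => φ.norm_coe_le_norm _))]
    rfl
  have hprob : ∀ j, IsProbabilityMeasure ((stepFrame μ)^[j] ρ) :=
    isProbabilityMeasure_stepFrame_iterate μ ρ
  set m : ℕ → Measure (Frame E) :=
    fun n => ((n + 1 : ℕ) : ℝ≥0∞)⁻¹ • ∑ j ∈ Finset.range (n + 1), (stepFrame μ)^[j] ρ
  have hmprob : ∀ n, IsProbabilityMeasure (m n) := fun n => ⟨by
    simp only [m, Measure.smul_apply, Measure.finsetSum_apply, measure_univ, Finset.sum_const,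
      Finset.card_range, nsmul_eq_mul, mul_one, smul_eq_mul]
    exact ENNReal.inv_mul_cancel (Nat.cast_ne_zero.2 n.succ_ne_zero) (ENNReal.natCast_ne_top _)⟩
  have hm_int : ∀ (φ : Frame E →ᵇ ℝ) (n : ℕ), ∫ p, φ p ∂(m n) =
      (∑ j ∈ Finset.range (n + 1), ∫ p, φ p ∂((stepFrame μ)^[j] ρ)) / ((n + 1 : ℕ) : ℝ) := by
    intro φ n
    simp only [m]
    rw [integral_smul_measure, integral_finsetSum_measure fun j _ =>
      BoundedContinuousFunction.integrable _ φ, ENNReal.toReal_inv, ENNReal.toReal_natCast,
      smul_eq_mul, inv_mul_eq_div]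
  set P : ℕ → ProbabilityMeasure (Frame E) := fun n => ⟨m n, hmprob n⟩
  obtain ⟨η, -, t, ht, hη⟩ := (isCompact_univ (X := ProbabilityMeasure (Frame E))).tendsto_subseq
    (x := P) fun k => mem_univ _
  rw [ProbabilityMeasure.tendsto_iff_forall_integral_tendsto] at hη
  refine ⟨η, inferInstance, ?_, ?_⟩
  · have := isProbabilityMeasure_stepFrame μ (η : Measure (Frame E))
    refine ext_of_forall_integral_eq_of_IsFiniteMeasure fun φ => ?_
    rw [hU]
    refine tendsto_nhds_unique (hη (U φ)) ?_
    set a : ℕ → ℝ := fun j => ∫ p, φ p ∂((stepFrame μ)^[j] ρ) with ha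
    have hdiff : Tendsto (fun k => (a (t k + 1) - a 0) / ((t k + 1 : ℕ) : ℝ)) atTop (𝓝 0) := by
      refine squeeze_zero_norm (a := fun k => (‖φ‖ + ‖φ‖) / ((t k + 1 : ℕ) : ℝ)) (fun k => ?_)
        (tendsto_const_nhds.div_atTop (tendsto_natCast_atTop_atTop.comp
          ((tendsto_add_atTop_nat 1).comp ht.tendsto_atTop)))
      rw [norm_div, RCLike.norm_natCast]
      refine div_le_div_of_nonneg_right ((norm_sub_le _ _).trans (add_le_add ?_ ?_))
        (Nat.cast_nonneg _) <;>
      · simp only [ha]
        exact (norm_integral_le_of_norm_le_const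
          (.of_forall fun _ => φ.norm_coe_le_norm _)).trans (by rw [probReal_univ, mul_one])
    have h := (hη φ).add hdiff
    rw [add_zero] at h
    refine h.congr fun k => ?_
    show ∫ p, φ p ∂(m (t k)) + _ = ∫ p, U φ p ∂(m (t k))
    have hstep : ∀ j, ∫ p, U φ p ∂((stepFrame μ)^[j] ρ) = a (j + 1) := fun j => by
      rw [← hU φ, ha]
      simp only [Function.iterate_succ_apply']
    simp only [hm_int, hstep, ← add_div]
    refine congrArg (· / ((t k + 1 : ℕ) : ℝ)) ?_
    have hsum := Finset.sum_range_sub a (t k + 1)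
    rw [Finset.sum_sub_distrib] at hsum
    linarith
  -- the lower bound
  have hG : Tendsto (fun k => (∫ q, frameLog (randProd (t k + 1) q.2) q.1 ∂(ρ.prod π)) /
      ((t k + 1 : ℕ) : ℝ)) atTop (𝓝 (∫ p, ∫ A, frameLog A p ∂μ ∂(η : Measure (Frame E)))) := by
    refine (hη G).congr fun k => ?_
    show ∫ p, G p ∂(m (t k)) = _
    rw [hm_int, integral_frameLog_randProd μ hμ hint]
    rfl
  have hN : Tendsto (fun k => t k + 1) atTop atTop :=
    (tendsto_add_atTop_nat 1).comp ht.tendsto_atTop
  have hNR : Tendsto (fun k => ((t k + 1 : ℕ) : ℝ)) atTop atTop :=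
    tendsto_natCast_atTop_atTop.comp hN
  set d : ℝ := (finrank ℝ E : ℝ) with hd'
  have hkey : ∀ δ : ℝ, 0 < δ → δ ≤ 1 →
      L - K * δ * (L + 2 * d * γ) ≤ ∫ p, ∫ A, frameLog A p ∂μ ∂(η : Measure (Frame E)) := by
    intro δ hδ hδ1
    have hlow : ∀ n : ℕ,
        (1 - K * δ) * (∫ x, logPair (randProd n x) ∂π) + (2 * Real.log δ - K * δ * (2 * C)) -
          K * δ * (2 * d) * (∫ x, Real.log ‖randProd n x‖ ∂π) ≤
          ∫ q, frameLog (randProd n q.2) q.1 ∂(ρ.prod π) := fun n => by
      have i1 := (integrable_logPair_randProd μ hd hμ hint n).const_mul (1 - K * δ)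
      have i2 := (integrable_log_randProd μ hμ hint n).const_mul (K * δ * (2 * d))
      have i3 : Integrable (fun _ : ℕ → E →L[ℝ] E => 2 * Real.log δ - K * δ * (2 * C)) π :=
        integrable_const _
      have hfi := integrable_frameLog_randProd μ hμ hint n ρ
      rw [integral_prod_symm _ hfi]
      refine le_trans (le_of_eq ?_) (integral_mono_ae ((i1.add i3).sub i2) hfi.integral_prod_right
        ((ae_all_unitDet μ hμ).mono fun x hx => ?_))
      · rw [integral_sub' (i1.add i3) i2, integral_add' i1 i3, integral_const_mul,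
          integral_const_mul, integral_const, probReal_univ, one_smul]
      · have hQ := randProd_mem_unitDet hx n
        have hlogQ : 0 ≤ Real.log ‖randProd n x‖ := Real.log_nonneg (one_le_norm hQ)
        have h := hK _ hQ δ (C + d * Real.log ‖randProd n x‖) hδ hδ1
          (by positivity) (one_le_topProd_two hd hQ) fun p => hC _ hQ p
        simp only [Pi.add_apply, Pi.sub_apply]
        refine le_trans (le_of_eq ?_) h
        rw [logPair]
        ring
    have hlim : Tendsto (fun k => ((1 - K * δ) * (∫ x, logPair (randProd (t k + 1) x) ∂π) +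
        (2 * Real.log δ - K * δ * (2 * C)) -
          K * δ * (2 * d) * (∫ x, Real.log ‖randProd (t k + 1) x‖ ∂π)) / ((t k + 1 : ℕ) : ℝ))
        atTop (𝓝 ((1 - K * δ) * L + 0 - K * δ * (2 * d) * γ)) := by
      refine (((hL.comp hN).const_mul (1 - K * δ)).add
        ((tendsto_const_nhds (x := 2 * Real.log δ - K * δ * (2 * C))).div_atTop hNR)).sub
        ((hγ.comp hN).const_mul (K * δ * (2 * d))) |>.congr fun k => ?_
      simp only [Function.comp_apply]
      ring
    refine le_trans (le_of_eq ?_) (le_of_tendsto_of_tendsto hlim hG (.of_forall fun k =>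
      div_le_div_of_nonneg_right (hlow _) (Nat.cast_nonneg _)))
    ring
  refine le_of_tendsto (f := fun j : ℕ => L - K * (1 / ((j : ℝ) + 1)) * (L + 2 * d * γ))
    (x := atTop) ?_ (.of_forall fun j => hkey _ (by positivity)
      (by rw [div_le_one (by positivity)]; linarith [(j.cast_nonneg : (0 : ℝ) ≤ j)]))
  simpa using ((tendsto_one_div_add_atTop_nhds_zero_nat.const_mul K).mul_const
    (L + 2 * d * γ)).const_sub L

end FA.GuivarchRaugi
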