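import Fermat.Agent.GuivarchRaugi.Simplicity
import Fermat.Agent.FurstenbergLyapunov.Example

/-!
# In the plane unboundedness is proximality

A limit of renormalised operators of determinant `±1` with norms tending to infinity is singular,
hence of rank one in dimension two; so the two shears are an example.
-/

set_option autoImplicit false

noncomputable section

namespace FA.GuivarchRaugi

open MeasureTheory Filter Topology Module Set Metric
open FA.FurstenbergLyapunov

variable {E : Type*} [NormedAddCommGroup E] [InnerProductSpace ℝ E] [FiniteDimensional ℝ E]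
  [MeasurableSpace E] [BorelSpace E] [Nontrivial E]

theorem proximal_of_finrank_two (hd : finrank ℝ E = 2) {S : Set (E →L[ℝ] E)}
    (hS : S ⊆ unitDet E) (h : FA.FurstenbergLyapunov.Unbounded S) : Proximal S := by
  choose A hA hAn using fun n : ℕ => h (n : ℝ)
  have hA1 : ∀ n, A n ∈ unitDet E := fun n => Submonoid.closure_induction
    (motive := fun B _ => B ∈ unitDet E) (fun B hB => hS hB) one_mem_unitDet
    (fun _ _ _ _ h1 h2 => mul_mem_unitDet h1 h2) (hA n)
  have hpos : ∀ n, 0 < ‖A n‖ := fun n => one_pos.trans_le (one_le_norm (hA1 n))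
  have hlim : Tendsto (fun n => ‖A n‖) atTop atTop :=
    tendsto_atTop_mono (fun n => (hAn n).le) tendsto_natCast_atTop_atTop
  obtain ⟨P, -, s, hs, hP⟩ := (isCompact_sphere (0 : E →L[ℝ] E) 1).tendsto_subseq
    (x := fun n => ‖A n‖⁻¹ • A n) fun n => by
      rw [mem_sphere_zero_iff_norm, norm_smul, norm_inv, norm_norm, inv_mul_cancel₀ (hpos n).ne']
  refine ⟨fun n => A (s n), P, fun n => hA _, hP, ?_⟩
  have hdet : LinearMap.det (P : E →ₗ[ℝ] E) = 0 := by
    refine tendsto_nhds_unique ((ContinuousLinearMap.continuous_det.tendsto P).comp hP) ?_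
    refine squeeze_zero_norm' (a := fun n => (‖A (s n)‖⁻¹) ^ 2) ?_ ?_
    · filter_upwards with n
      show ‖LinearMap.det ((‖A (s n)‖⁻¹ • A (s n) : E →L[ℝ] E) : E →ₗ[ℝ] E)‖ ≤ _
      rw [ContinuousLinearMap.toLinearMap_smul, LinearMap.det_smul, norm_mul, norm_pow, norm_inv,
        norm_norm, Real.norm_eq_abs, show |LinearMap.det (A (s n) : E →ₗ[ℝ] E)| = 1 from hA1 _,
        mul_one, hd]
    · simpa using ((tendsto_inv_atTop_zero.comp (hlim.comp hs.tendsto_atTop)).pow 2)
  have hrank : finrank ℝ (LinearMap.range (P : E →ₗ[ℝ] E)) ≤ 1 := by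
    have := Submodule.finrank_lt (LinearMap.range_lt_top_of_det_eq_zero hdet).ne
    omega
  obtain ⟨v, hv⟩ := finrank_le_one_iff.1 hrank
  refine isLine_of_forall_exists (a := (v : E)) fun w => ?_
  obtain ⟨c, hc⟩ := hv ⟨_, LinearMap.mem_range_self (P : E →ₗ[ℝ] E) w⟩
  exact ⟨c, (congrArg Subtype.val hc).symm⟩

theorem shearLaw_simple :
    ∃ γ l : ℝ, l < γ ∧ 0 < γ ∧
      (∀ᵐ x ∂(Measure.infinitePi fun _ : ℕ => shearLaw),
        Tendsto (fun n : ℕ => Real.log ‖randProd n x‖ / n) atTop (𝓝 γ)) ∧
      ∀ᵐ x ∂(Measure.infinitePi fun _ : ℕ => shearLaw),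
        Tendsto (fun n : ℕ =>
          Real.log ((randProd n x : Plane →ₗ[ℝ] Plane).singularValues 1) / n) atTop (𝓝 l) :=
  have hd : finrank ℝ Plane = 2 := finrank_euclideanSpace_fin
  exists_simple_exponent shearLaw (by omega) shearLaw_ae shearLaw_irreducible
    (proximal_of_finrank_two hd
      (Measure.support_subset_of_isClosed isClosed_unitDet shearLaw_ae) shearLaw_unbounded)
    (Integrable.add_measure ((integrable_dirac (enorm_lt_top)).smul_measure (by simp))
      ((integrable_dirac (enorm_lt_top)).smul_measure (by simp)))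

end FA.GuivarchRaugi
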