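import Fermat.Agent.GuivarchRaugi.Adjoint
import Fermat.Agent.FurstenbergKifer.Uniform

/-!
# Products from the left collapse to operators of rank one

Let `ν` be stationary and `M a b B` the mean of `⟪a, z⟫ * ⟪b, z⟫` for `z` the direction of `B v`.
The squares of the increments of `M a b` along products from the left have a finite sum, so at a
limit `H` of the renormalised products `M (H A) = M H` on the monoid; proximality gives rank one.
-/

set_option autoImplicit false

noncomputable section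

namespace FA.GuivarchRaugi

open MeasureTheory Filter Topology Module Set
open FA.FurstenbergLyapunov FA.FurstenbergKifer
open scoped RealInnerProductSpace ENNReal BoundedContinuousFunction

variable {E : Type*} [NormedAddCommGroup E] [InnerProductSpace ℝ E] [FiniteDimensional ℝ E]
  [MeasurableSpace E] [BorelSpace E] [Nontrivial E]

/-- The test function `⟪a, z⟫ * ⟪b, z⟫`. -/
def pairTest (a b : E) : Sph E →ᵇ ℝ :=
  BoundedContinuousFunction.mkOfCompact ⟨fun z => ⟪a, (z : E)⟫ * ⟪b, (z : E)⟫,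
    (continuous_const.inner continuous_subtype_val).mul
      (continuous_const.inner continuous_subtype_val)⟩

omit [MeasurableSpace E] [BorelSpace E] [Nontrivial E] in
theorem pairTest_apply (a b : E) (z : Sph E) :
    pairTest a b z = ⟪a, (z : E)⟫ * ⟪b, (z : E)⟫ := rfl

/-- The mean of a test function at the direction of `B v`. -/
def dirMean (ν : Measure (Sph E)) (φ : Sph E →ᵇ ℝ) (B : E →L[ℝ] E) : ℝ := ∫ v, φ (act B v) ∂ν

theorem measurable_dirMean (ν : Measure (Sph E)) [SFinite ν] (φ : Sph E →ᵇ ℝ) :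
    Measurable (dirMean ν φ) :=
  (StronglyMeasurable.integral_prod_right (f := fun (B : E →L[ℝ] E) (v : Sph E) => φ (act B v))
    (φ.continuous.measurable.comp (measurable_act_pair measurable_fst measurable_snd)
      ).stronglyMeasurable).measurable

omit [FiniteDimensional ℝ E] [BorelSpace E] in
theorem abs_dirMean_le (ν : Measure (Sph E)) [IsProbabilityMeasure ν] (φ : Sph E →ᵇ ℝ)
    (B : E →L[ℝ] E) : |dirMean ν φ B| ≤ ‖φ‖ :=
  (norm_integral_le_of_norm_le_const (.of_forall fun _ => φ.norm_coe_le_norm _)).trans (by simp)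

variable (ν : Measure (Sph E)) [IsProbabilityMeasure ν]

/-- A quadratic test function is a combination of those for the vectors of a basis. -/
theorem dirMean_pairTest_eq_sum {ι : Type*} [Fintype ι] (e : OrthonormalBasis ι ℝ E) (w : E)
    (B : E →L[ℝ] E) : dirMean ν (pairTest w w) B =
      ∑ i, ∑ j, ⟪e i, w⟫ * ⟪e j, w⟫ * dirMean ν (pairTest (e i) (e j)) B := by
  have hint : ∀ (i j : ι), Integrable
      (fun v => ⟪e i, w⟫ * ⟪e j, w⟫ * pairTest (e i) (e j) (act B v)) ν := fun i j =>
    (Integrable.of_bound (((pairTest (e i) (e j)).continuous.measurable.comp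
      (measurable_act B)).aestronglyMeasurable) _
      (.of_forall fun _ => (pairTest (e i) (e j)).norm_coe_le_norm _)).const_mul _
  simp only [dirMean, ← integral_const_mul]
  simp only [← integral_finsetSum _ fun j _ => hint _ j]
  rw [← integral_finsetSum _ fun i _ => integrable_finsetSum _ fun j _ => hint i j]
  refine integral_congr_ae (.of_forall fun v => ?_)
  simp only [pairTest_apply]
  rw [← e.sum_inner_mul_inner w (act B v : E), Finset.sum_mul_sum]
  refine Finset.sum_congr rfl fun i _ => Finset.sum_congr rfl fun j _ => ?_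
  rw [real_inner_comm w (e i), real_inner_comm w (e j)]
  ring

omit [FiniteDimensional ℝ E] [MeasurableSpace E] [BorelSpace E] [Nontrivial E] in
theorem ker_ne_top {H : E →L[ℝ] E} (hH : H ≠ 0) : LinearMap.ker (H : E →ₗ[ℝ] E) ≠ ⊤ := fun h =>
  hH (ContinuousLinearMap.coe_injective (LinearMap.ker_eq_top.1 h))

omit [FiniteDimensional ℝ E] [BorelSpace E] [Nontrivial E] [IsProbabilityMeasure ν] in
theorem ae_apply_ne_zero (hnull : ∀ W : Submodule ℝ E, W ≠ ⊤ → mass ν W = 0) {H : E →L[ℝ] E}
    (hH : H ≠ 0) : ∀ᵐ v : Sph E ∂ν, H (v : E) ≠ 0 :=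
  (measure_eq_zero_iff_ae_notMem.1 (hnull _ (ker_ne_top hH))).mono fun _ hv => hv

omit [FiniteDimensional ℝ E] in
/-- The mean is continuous where no direction is lost. -/
theorem tendsto_dirMean (hnull : ∀ W : Submodule ℝ E, W ≠ ⊤ → mass ν W = 0) (φ : Sph E →ᵇ ℝ)
    {Y : ℕ → E →L[ℝ] E} {c : ℕ → ℝ} {Z : E →L[ℝ] E} (hc : ∀ n, 0 < c n)
    (hY : Tendsto (fun n => c n • Y n) atTop (𝓝 Z)) (hZ : Z ≠ 0) :
    Tendsto (fun n => dirMean ν φ (Y n)) atTop (𝓝 (dirMean ν φ Z)) := by
  refine tendsto_integral_of_dominated_convergence (fun _ => ‖φ‖)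
    (fun n => (φ.continuous.measurable.comp (measurable_act _)).aestronglyMeasurable)
    (integrable_const _) (fun n => .of_forall fun v => φ.norm_coe_le_norm _) ?_
  filter_upwards [ae_apply_ne_zero ν hnull hZ] with v hv
  have h1 : Tendsto (fun n => (c n • Y n) (v : E)) atTop (𝓝 (Z (v : E))) :=
    ((ContinuousLinearMap.apply ℝ E (v : E)).continuous.tendsto Z).comp hY
  refine ((φ.continuous.tendsto _).comp ((continuousAt_dir hv).tendsto.comp h1)).congr' ?_
  filter_upwards [h1.eventually_ne hv] with n hn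
  show φ (dir ((c n • Y n) (v : E))) = φ (dir (Y n (v : E)))
  rw [smul_apply] at hn ⊢
  rw [dir_smul (hc n) (fun h => hn (by rw [h, smul_zero]))]

variable (μ : Measure (E →L[ℝ] E)) [IsProbabilityMeasure μ]

/-- The law of a product of `n` factors from the left. -/
def leftLaw (n : ℕ) : Measure (E →L[ℝ] E) :=
  (Measure.infinitePi fun _ : ℕ => μ).map (leftProd n)

instance (n : ℕ) : IsProbabilityMeasure (leftLaw μ n) :=
  Measure.isProbabilityMeasure_map (measurable_leftProd n).aemeasurable

omit [FiniteDimensional ℝ E] [MeasurableSpace E] [BorelSpace E] [Nontrivial E] in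
theorem leftLaw_zero : leftLaw μ 0 = Measure.dirac 1 := by
  rw [leftLaw, show leftProd (E := E) 0 = fun _ => 1 from rfl, Measure.map_const, measure_univ,
    one_smul]

omit [MeasurableSpace E] [BorelSpace E] [Nontrivial E] in
theorem leftLaw_unitDet (hμ : ∀ᵐ A ∂μ, A ∈ unitDet E) (n : ℕ) :
    ∀ᵐ A ∂(leftLaw μ n), A ∈ unitDet E :=
  (ae_map_iff (measurable_leftProd n).aemeasurable isClosed_unitDet.measurableSet).2
    ((ae_all_unitDet μ hμ).mono fun _ hx => leftProd_mem_unitDet hx n)

omit [MeasurableSpace E] [BorelSpace E] [Nontrivial E] in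
theorem leftLaw_succ (n : ℕ) :
    leftLaw μ (n + 1) = (μ.prod (leftLaw μ n)).map fun p => p.1 * p.2 := by
  have h := Measure.map_prod_map μ (Measure.infinitePi fun _ : ℕ => μ) measurable_id
    (measurable_leftProd (E := E) n)
  rw [Measure.map_id] at h
  rw [leftLaw, leftLaw, h, ← map_split_infinitePi μ, Measure.map_map
    (measurable_id.prodMap (measurable_leftProd n))
    ((measurable_pi_apply 0).prodMk measurable_shift),
    Measure.map_map continuous_mul.measurable ((measurable_id.prodMap (measurable_leftProd n)).comp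
      ((measurable_pi_apply 0).prodMk measurable_shift))]
  exact congrArg (Measure.map · _) (funext fun x => leftProd_succ' n x)

omit [MeasurableSpace E] [BorelSpace E] [Nontrivial E] in
theorem lintegral_leftLaw_succ (n : ℕ) {f : (E →L[ℝ] E) → ℝ≥0∞} (hf : Measurable f) :
    ∫⁻ C, f C ∂(leftLaw μ (n + 1)) = ∫⁻ A, ∫⁻ B, f (A * B) ∂(leftLaw μ n) ∂μ := by
  rw [leftLaw_succ, lintegral_map hf continuous_mul.measurable,
    lintegral_prod (fun p : (E →L[ℝ] E) × (E →L[ℝ] E) => f (p.1 * p.2))
      (hf.comp continuous_mul.measurable).aemeasurable]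

omit [MeasurableSpace E] [BorelSpace E] [Nontrivial E] in
theorem lintegral_leftLaw_add (n k : ℕ) {f : (E →L[ℝ] E) → ℝ≥0∞} (hf : Measurable f) :
    ∫⁻ C, f C ∂(leftLaw μ (n + k)) = ∫⁻ A, ∫⁻ B, f (A * B) ∂(leftLaw μ k) ∂(leftLaw μ n) := by
  induction n generalizing f with
  | zero =>
    have hm : Measurable fun A : E →L[ℝ] E => ∫⁻ B, f (A * B) ∂(leftLaw μ k) :=
      Measurable.lintegral_prod_right' (f := fun p : (E →L[ℝ] E) × (E →L[ℝ] E) => f (p.1 * p.2))
        (hf.comp continuous_mul.measurable)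
    rw [leftLaw_zero, lintegral_dirac' _ hm, Nat.zero_add]
    simp
  | succ n ih =>
    have hm : Measurable fun A : E →L[ℝ] E => ∫⁻ B, f (A * B) ∂(leftLaw μ k) :=
      Measurable.lintegral_prod_right' (f := fun p : (E →L[ℝ] E) × (E →L[ℝ] E) => f (p.1 * p.2))
        (hf.comp continuous_mul.measurable)
    rw [show n + 1 + k = n + k + 1 by omega, lintegral_leftLaw_succ μ _ hf,
      lintegral_leftLaw_succ μ n hm]
    refine lintegral_congr fun A => ?_
    rw [ih (f := fun C => f (A * C)) (hf.comp (measurable_const_mul A))]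
    simp only [mul_assoc]

omit [MeasurableSpace E] [BorelSpace E] [Nontrivial E] in
theorem mul_mem_support_leftLaw {A B : E →L[ℝ] E} {n : ℕ} (hA : A ∈ μ.support)
    (hB : B ∈ (leftLaw μ n).support) : A * B ∈ (leftLaw μ (n + 1)).support := by
  rw [Measure.mem_support_iff_forall] at *
  intro U hU
  obtain ⟨U₁, hU₁, U₂, hU₂, hsub⟩ := mem_nhds_prod_iff.1
    (continuous_mul.continuousAt (x := (A, B)) |>.preimage_mem_nhds hU)
  rw [leftLaw_succ]
  refine lt_of_lt_of_le ?_ ((measure_mono hsub).trans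
    (Measure.le_map_apply continuous_mul.measurable.aemeasurable U))
  rw [Measure.prod_prod]
  exact ENNReal.mul_pos (hA _ hU₁).ne' (hB _ hU₂).ne'

omit [MeasurableSpace E] [BorelSpace E] [Nontrivial E] in
theorem exists_mem_support_leftLaw {A : E →L[ℝ] E} (hA : A ∈ Submonoid.closure μ.support) :
    ∃ n, A ∈ (leftLaw μ n).support := by
  induction hA using Submonoid.closure_induction_left with
  | one =>
    refine ⟨0, ?_⟩
    rw [Measure.mem_support_iff_forall, leftLaw_zero]
    intro U hU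
    rw [Measure.dirac_apply_of_mem (mem_of_mem_nhds hU)]
    exact one_pos
  | mul_left x hx y hy ih =>
    obtain ⟨n, hn⟩ := ih
    exact ⟨n + 1, mul_mem_support_leftLaw μ hx hn⟩

variable {ν μ}

/-- One step of the walk does not change the mean. -/
theorem integral_dirMean_mul (hμ : ∀ᵐ A ∂μ, A ∈ unitDet E) (hν : stepLaw μ ν = ν)
    (φ : Sph E →ᵇ ℝ) {B : E →L[ℝ] E} (hB : B ∈ unitDet E) :
    ∫ A, dirMean ν φ (B * A) ∂μ = dirMean ν φ B := by
  have hm : Measurable fun p : (E →L[ℝ] E) × Sph E => act p.1 p.2 :=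
    measurable_act_pair measurable_fst measurable_snd
  have hB' : Measurable fun w : Sph E => φ (act B w) :=
    φ.continuous.measurable.comp (measurable_act B)
  conv_rhs => rw [dirMean, ← hν, stepLaw,
    integral_map hm.aemeasurable hB'.aestronglyMeasurable,
    integral_prod (fun p : (E →L[ℝ] E) × Sph E => φ (act B (act p.1 p.2)))
      (Integrable.of_bound (hB'.comp hm).aestronglyMeasurable ‖φ‖
        (.of_forall fun _ => φ.norm_coe_le_norm _))]
  refine integral_congr_ae (hμ.mono fun A hA => integral_congr_ae (.of_forall fun v => ?_))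
  show φ (act (B * A) v) = φ (act B (act A v))
  rw [act_mul hB hA]

/-- Several steps of the walk do not change the mean. -/
theorem integral_dirMean_leftLaw (hμ : ∀ᵐ A ∂μ, A ∈ unitDet E) (hν : stepLaw μ ν = ν)
    (φ : Sph E →ᵇ ℝ) (k : ℕ) {B : E →L[ℝ] E} (hB : B ∈ unitDet E) :
    ∫ C, dirMean ν φ (B * C) ∂(leftLaw μ k) = dirMean ν φ B := by
  induction k generalizing B with
  | zero => rw [leftLaw_zero, integral_dirac, mul_one]
  | succ k ih =>
    have hm : Measurable fun C : E →L[ℝ] E => dirMean ν φ (B * C) :=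
      (measurable_dirMean ν φ).comp (measurable_const_mul B)
    rw [leftLaw_succ, integral_map continuous_mul.measurable.aemeasurable hm.aestronglyMeasurable,
      integral_prod (fun p : (E →L[ℝ] E) × (E →L[ℝ] E) => dirMean ν φ (B * (p.1 * p.2)))
        (Integrable.of_bound (hm.comp continuous_mul.measurable).aestronglyMeasurable ‖φ‖
          (.of_forall fun _ => abs_dirMean_le ν φ _))]
    refine (integral_congr_ae (hμ.mono fun A hA => ?_)).trans (integral_dirMean_mul hμ hν φ hB)
    simp only [← mul_assoc]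
    exact ih (mul_mem_unitDet hB hA)

/-- The mean square of an increment over `k` steps. -/
def increment (ν : Measure (Sph E)) (μ : Measure (E →L[ℝ] E)) (φ : Sph E →ᵇ ℝ) (k : ℕ)
    (Y : E →L[ℝ] E) : ℝ≥0∞ :=
  ∫⁻ C, ENNReal.ofReal ((dirMean ν φ (Y * C) - dirMean ν φ Y) ^ 2) ∂(leftLaw μ k)

theorem measurable_increment (φ : Sph E →ᵇ ℝ) (k : ℕ) : Measurable (increment ν μ φ k) :=
  Measurable.lintegral_prod_right' (f := fun p : (E →L[ℝ] E) × (E →L[ℝ] E) =>
      ENNReal.ofReal ((dirMean ν φ (p.1 * p.2) - dirMean ν φ p.1) ^ 2))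
    ((((measurable_dirMean ν φ).comp continuous_mul.measurable).sub
      ((measurable_dirMean ν φ).comp measurable_fst)).pow_const 2).ennreal_ofReal

theorem increment_add_sq (hμ : ∀ᵐ A ∂μ, A ∈ unitDet E) (hν : stepLaw μ ν = ν) (φ : Sph E →ᵇ ℝ)
    (k : ℕ) {Y : E →L[ℝ] E} (hY : Y ∈ unitDet E) :
    increment ν μ φ k Y + ENNReal.ofReal (dirMean ν φ Y ^ 2) =
      ∫⁻ C, ENNReal.ofReal (dirMean ν φ (Y * C) ^ 2) ∂(leftLaw μ k) := by
  set g := fun C => dirMean ν φ (Y * C) with hg
  have hgm : Measurable g := (measurable_dirMean ν φ).comp (measurable_const_mul Y)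
  have hgb : ∀ C, ‖g C‖ ≤ ‖φ‖ := fun C => abs_dirMean_le ν φ _
  have hgi : Integrable g (leftLaw μ k) :=
    Integrable.of_bound hgm.aestronglyMeasurable _ (.of_forall hgb)
  have hg2 : Integrable (fun C => g C ^ 2) (leftLaw μ k) :=
    Integrable.of_bound (hgm.pow_const 2).aestronglyMeasurable (‖φ‖ ^ 2) (.of_forall fun C => by
      rw [norm_pow]; exact pow_le_pow_left₀ (norm_nonneg _) (hgb C) 2)
  have hd : Integrable (fun C => (g C - dirMean ν φ Y) ^ 2) (leftLaw μ k) := by
    refine ((hg2.sub (hgi.const_mul (2 * dirMean ν φ Y))).add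
      (integrable_const (dirMean ν φ Y ^ 2))).congr (.of_forall fun C => ?_)
    simp only [Pi.add_apply, Pi.sub_apply]
    ring
  rw [increment, ← ofReal_integral_eq_lintegral_ofReal hd (.of_forall fun C => sq_nonneg _),
    ← ofReal_integral_eq_lintegral_ofReal hg2 (.of_forall fun C => sq_nonneg _),
    ← ENNReal.ofReal_add (integral_nonneg fun C => sq_nonneg _) (sq_nonneg _)]
  congr 1
  have hi : ∫ C, g C ∂(leftLaw μ k) = dirMean ν φ Y := integral_dirMean_leftLaw hμ hν φ k hY
  calc ∫ C, (g C - dirMean ν φ Y) ^ 2 ∂(leftLaw μ k) + dirMean ν φ Y ^ 2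
      = ∫ C, g C ^ 2 - 2 * dirMean ν φ Y * g C + dirMean ν φ Y ^ 2 ∂(leftLaw μ k) +
          dirMean ν φ Y ^ 2 := by
        congr 1
        exact integral_congr_ae (.of_forall fun C => by ring)
    _ = ∫ C, g C ^ 2 ∂(leftLaw μ k) := by
        rw [integral_add (f := fun C => g C ^ 2 - 2 * dirMean ν φ Y * g C)
            (hg2.sub (hgi.const_mul _)) (integrable_const _),
          integral_sub hg2 (hgi.const_mul _), integral_const_mul, hi, integral_const,
          probReal_univ, one_smul]
        ring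

/-- The increments over `k` steps tend to `0`. -/
theorem ae_tendsto_increment (hμ : ∀ᵐ A ∂μ, A ∈ unitDet E) (hν : stepLaw μ ν = ν)
    (φ : Sph E →ᵇ ℝ) (k : ℕ) :
    ∀ᵐ x ∂(Measure.infinitePi fun _ : ℕ => μ),
      Tendsto (fun n => increment ν μ φ k (leftProd n x)) atTop (𝓝 0) := by
  set π := Measure.infinitePi fun _ : ℕ => μ
  set a : ℕ → ℝ≥0∞ := fun n => ∫⁻ Y, ENNReal.ofReal (dirMean ν φ Y ^ 2) ∂(leftLaw μ n) with ha
  set D : ℕ → ℝ≥0∞ := fun n => ∫⁻ x, increment ν μ φ k (leftProd n x) ∂π with hD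
  have hsm : Measurable fun Y : E →L[ℝ] E => ENNReal.ofReal (dirMean ν φ Y ^ 2) :=
    ((measurable_dirMean ν φ).pow_const 2).ennreal_ofReal
  have hrec : ∀ n, D n + a n = a (n + k) := fun n => by
    simp only [hD, ha]
    rw [lintegral_leftLaw_add μ n k hsm, ← lintegral_map (measurable_increment φ k)
      (measurable_leftProd n)]
    show ∫⁻ Y, increment ν μ φ k Y ∂(leftLaw μ n) + _ = _
    rw [← lintegral_add_left (measurable_increment φ k)]
    exact lintegral_congr_ae ((leftLaw_unitDet μ hμ n).mono fun Y hY =>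
      increment_add_sq hμ hν φ k hY)
  have hab : ∀ n, a n ≤ ENNReal.ofReal (‖φ‖ ^ 2) := fun n => by
    refine (lintegral_mono fun Y => ENNReal.ofReal_le_ofReal ?_).trans
      (by rw [lintegral_const, measure_univ, mul_one])
    rw [← sq_abs]
    exact pow_le_pow_left₀ (abs_nonneg _) (abs_dirMean_le ν φ Y) 2
  have hfin : ∀ N, ∑ n ∈ Finset.range N, D n ≤ k * ENNReal.ofReal (‖φ‖ ^ 2) := fun N => by
    have h1 : ∑ n ∈ Finset.range N, a (n + k) ≤
        ∑ n ∈ Finset.range N, a n + k * ENNReal.ofReal (‖φ‖ ^ 2) := by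
      have h2 : ∑ n ∈ Finset.range N, a (n + k) ≤ ∑ n ∈ Finset.range (N + k), a n := by
        rw [add_comm N k, Finset.sum_range_add]
        simp only [add_comm k]
        exact le_add_self
      refine h2.trans ?_
      rw [Finset.sum_range_add]
      refine add_le_add le_rfl ((Finset.sum_le_sum fun i _ => hab _).trans ?_)
      rw [Finset.sum_const, Finset.card_range, nsmul_eq_mul]
    rw [← Finset.sum_congr rfl fun n _ => hrec n, Finset.sum_add_distrib, add_comm] at h1
    exact (ENNReal.add_le_add_iff_left ((ENNReal.sum_lt_top.2 fun n _ =>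
      (hab n).trans_lt ENNReal.ofReal_lt_top)).ne).1 h1
  have htsum : ∫⁻ x, ∑' n, increment ν μ φ k (leftProd n x) ∂π ≠ ⊤ := by
    rw [lintegral_tsum (f := fun n x => increment ν μ φ k (leftProd n x)) fun n =>
      ((measurable_increment φ k).comp (measurable_leftProd n)).aemeasurable,
      ENNReal.tsum_eq_iSup_nat]
    exact ne_top_of_le_ne_top (ENNReal.mul_ne_top (ENNReal.natCast_ne_top k) ENNReal.ofReal_ne_top)
      (iSup_le hfin)
  filter_upwards [ae_lt_top (Measurable.tsum fun n =>
    (measurable_increment φ k).comp (measurable_leftProd n)) htsum] with x hx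
  exact ENNReal.tendsto_atTop_zero_of_tsum_ne_top hx.ne

/-- At a limit of the renormalised products the means are invariant under the monoid. -/
theorem dirMean_mul_eq (hμ : ∀ᵐ A ∂μ, A ∈ unitDet E)
    (hnull : ∀ W : Submodule ℝ E, W ≠ ⊤ → mass ν W = 0) {Y : ℕ → E →L[ℝ] E}
    {c : ℕ → ℝ} {H : E →L[ℝ] E} (hc : ∀ n, 0 < c n) 
    (hlim : Tendsto (fun n => c n • Y n) atTop (𝓝 H))
    (hH : H ≠ 0) {φ : Sph E →ᵇ ℝ}
    (hinc : ∀ k, Tendsto (fun n => increment ν μ φ k (Y n)) atTop (𝓝 0))
    {A : E →L[ℝ] E} (hA : A ∈ Submonoid.closure μ.support) :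
    dirMean ν φ (H * A) = dirMean ν φ H := by
  have hne : ∀ B ∈ unitDet E, H * B ≠ 0 := fun B hB h => hH <| by
    ext v
    obtain ⟨w, rfl⟩ := LinearMap.injective_iff_surjective.1
      (injective_of_unitDet hB : Function.Injective (B : E →ₗ[ℝ] E)) v
    exact congrArg (fun T : E →L[ℝ] E => T w) h
  set S := {B : E →L[ℝ] E | B ∈ unitDet E ∧ dirMean ν φ (H * B) = dirMean ν φ H} with hS
  have hclosed : IsClosed S := IsSeqClosed.isClosed fun {B B'} hB hBl => by
    have hB' : B' ∈ unitDet E :=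
      isClosed_unitDet.mem_of_tendsto hBl (.of_forall fun n => (hB n).1)
    refine ⟨hB', tendsto_nhds_unique (tendsto_dirMean ν hnull φ (c := fun _ => 1)
      (fun _ => one_pos) (by simpa using hBl.const_mul H) (hne B' hB')) ?_⟩
    simp only [(hB _).2, tendsto_const_nhds]
  have hmemS : ∀ k, S ∈ ae (leftLaw μ k) := fun k => by
    set D : (E →L[ℝ] E) → ℝ≥0∞ := fun C =>
      ENNReal.ofReal ((dirMean ν φ (H * C) - dirMean ν φ H) ^ 2)
    have hDm : Measurable D := ((((measurable_dirMean ν φ).comp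
      (measurable_const_mul H)).sub_const _).pow_const 2).ennreal_ofReal
    have h0 : ∫⁻ C, D C ∂(leftLaw μ k) = 0 := by
      refine nonpos_iff_eq_zero.1 ?_
      calc ∫⁻ C, D C ∂(leftLaw μ k)
          = ∫⁻ C, liminf (fun n => ENNReal.ofReal
              ((dirMean ν φ (Y n * C) - dirMean ν φ (Y n)) ^ 2)) atTop ∂(leftLaw μ k) := by
            refine lintegral_congr_ae ((leftLaw_unitDet μ hμ k).mono fun C hC => ?_)
            refine (Tendsto.liminf_eq (ENNReal.tendsto_ofReal
              (((tendsto_dirMean ν hnull φ hc ?_ (hne C hC)).sub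
                (tendsto_dirMean ν hnull φ hc hlim hH)).pow 2))).symm
            simpa [smul_mul_assoc] using hlim.mul_const C
        _ ≤ liminf (fun n => increment ν μ φ k (Y n)) atTop :=
            lintegral_liminf_le fun n => (((((measurable_dirMean ν φ).comp
              (measurable_const_mul (Y n))).sub_const _).pow_const 2).ennreal_ofReal :)
        _ = 0 := (hinc k).liminf_eq
    filter_upwards [(lintegral_eq_zero_iff hDm).1 h0, leftLaw_unitDet μ hμ k] with C hC hC1
    refine ⟨hC1, ?_⟩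
    simpa [D, sub_eq_zero, sq_nonpos_iff] using hC
  obtain ⟨k, hk⟩ := exists_mem_support_leftLaw μ hA
  exact (Measure.support_subset_of_isClosed hclosed (hmemS k) hk).2

omit [MeasurableSpace E] [BorelSpace E] [Nontrivial E] [IsProbabilityMeasure μ] in
theorem exists_apply_ne_zero {S : Set (E →L[ℝ] E)} (hS : S ⊆ unitDet E)
    (hsi : StronglyIrreducible S) {H : E →L[ℝ] E} (hH : H ≠ 0) {w : E} (hw : w ≠ 0) :
    ∃ g ∈ Submonoid.closure S, H (g w) ≠ 0 := by
  classical
  by_contra h
  push Not at h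
  set W : Submodule ℝ E := Submodule.span ℝ ((fun g : E →L[ℝ] E => g w) '' Submonoid.closure S)
  have hker : W ≤ LinearMap.ker (H : E →ₗ[ℝ] E) := by
    refine Submodule.span_le.2 ?_
    rintro _ ⟨g, hg, rfl⟩
    exact h g hg
  refine hsi ⟨{W}, Finset.singleton_nonempty W, fun V hV => ?_, fun A hA V hV => ?_⟩ <;>
    rw [Finset.mem_singleton] at hV <;> subst hV
  · exact ⟨fun h0 => hw ((Submodule.mem_bot ℝ).1 (h0 ▸ Submodule.subset_span
      ⟨1, one_mem _, one_apply_eq_self w⟩)),
      fun ht => ker_ne_top hH (top_le_iff.1 (ht ▸ hker))⟩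
  · refine Finset.mem_singleton.2 (Submodule.eq_of_le_of_finrank_le ?_
      (Submodule.equivMapOfInjective _ (injective_of_unitDet (hS hA)) W).finrank_eq.le)
    rw [Submodule.map_span, Submodule.span_le]
    rintro _ ⟨_, ⟨g, hg, rfl⟩, rfl⟩
    exact Submodule.subset_span ⟨A * g, mul_mem (Submonoid.subset_closure hA) hg, rfl⟩

omit [IsProbabilityMeasure μ] in
/-- Invariance of the means under a proximal irreducible monoid forces rank one. -/
theorem isLine_of_invariant (hμ : ∀ᵐ A ∂μ, A ∈ unitDet E) (hsi : StronglyIrreducible μ.support)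
    (hprox : Proximal μ.support) (hnull : ∀ W : Submodule ℝ E, W ≠ ⊤ → mass ν W = 0)
    {H : E →L[ℝ] E} (hH : H ≠ 0)
    (hinv : ∀ w : E, ∀ A ∈ Submonoid.closure μ.support,
      dirMean ν (pairTest w w) (H * A) = dirMean ν (pairTest w w) H) : IsLine H := by
  have hS : μ.support ⊆ unitDet E := Measure.support_subset_of_isClosed isClosed_unitDet hμ
  obtain ⟨A, P, hA, hAP, a, ha, hPa⟩ := hprox
  have hA1 : ∀ j, A j ∈ unitDet E := fun j =>
    Submonoid.closure_induction (motive := fun B _ => B ∈ unitDet E) (fun B hB => hS hB)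
      one_mem_unitDet (fun _ _ _ _ h1 h2 => mul_mem_unitDet h1 h2) (hA j)
  have hP : P ≠ 0 := fun h => by
    have h1 := hAP.norm
    rw [h, norm_zero] at h1
    refine zero_ne_one (α := ℝ) (tendsto_nhds_unique h1 (tendsto_const_nhds.congr fun j => ?_))
    rw [norm_smul, norm_inv, norm_norm,
      inv_mul_cancel₀ (one_pos.trans_le (one_le_norm (hA1 j))).ne']
  obtain ⟨g, hg, hga⟩ := exists_apply_ne_zero hS hsi hH (w := a) (by simp [← norm_ne_zero_iff, ha])
  set b := H (g a)
  have hZ : H * g * P ≠ 0 := fun h => by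
    obtain ⟨v, hv⟩ := DFunLike.ne_iff.1 hP
    have h1 : (H * g * P) v = 0 := by rw [h]; rfl
    rw [mul_apply_eq_comp, mul_apply_eq_comp, hPa v, map_smul, map_smul, smul_eq_zero] at h1
    rcases h1 with h1 | h1
    · exact hv (by rw [hPa v, h1, zero_smul]; rfl)
    · exact hga h1
  refine isLine_of_forall_exists (a := b) fun v => ?_
  suffices hmem : H v ∈ (ℝ ∙ b) by
    obtain ⟨c, hc⟩ := Submodule.mem_span_singleton.1 hmem
    exact ⟨c, hc.symm⟩
  rw [← Submodule.orthogonal_orthogonal (ℝ ∙ b), Submodule.mem_orthogonal]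
  intro w hw
  rw [Submodule.mem_orthogonal_singleton_iff_inner_left] at hw
  have hlim0 : dirMean ν (pairTest w w) H = 0 := by
    have h1 : ∀ᵐ v : Sph E ∂ν, pairTest w w (act (H * g * P) v) = 0 := by
      filter_upwards [ae_apply_ne_zero ν hnull hZ] with v hv
      rw [pairTest_apply, act_eq, coe_dir hv, real_inner_smul_right, mul_apply_eq_comp,
        mul_apply_eq_comp, hPa, map_smul, map_smul, real_inner_smul_right,
        show ⟪w, H (g a)⟫ = 0 from hw]
      ring
    have h2 : dirMean ν (pairTest w w) (H * g * P) = 0 := by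
      rw [dirMean, integral_congr_ae h1, integral_zero]
    rw [← h2]
    refine tendsto_nhds_unique (tendsto_const_nhds.congr fun j => ?_)
      (tendsto_dirMean ν hnull (pairTest w w) (Y := fun j => H * g * A j)
        (fun j => inv_pos.2 (one_pos.trans_le (one_le_norm (hA1 j)))) ?_ hZ)
    · rw [mul_assoc, hinv w _ (mul_mem hg (hA j))]
    · simpa [mul_smul_comm] using hAP.const_mul (H * g)
  have hzero : ∀ᵐ v : Sph E ∂ν, ⟪w, H (v : E)⟫ = 0 := by
    have hi : Integrable (fun v => pairTest w w (act H v)) ν := Integrable.of_bound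
      ((pairTest w w).continuous.measurable.comp (measurable_act H)).aestronglyMeasurable _
      (.of_forall fun _ => (pairTest w w).norm_coe_le_norm _)
    filter_upwards [(integral_eq_zero_iff_of_nonneg (fun v => mul_self_nonneg _) hi).1 hlim0,
      ae_apply_ne_zero ν hnull hH] with v hv hv'
    have h1 : pairTest w w (act H v) = 0 := hv
    rw [pairTest_apply, act_eq, coe_dir hv', real_inner_smul_right, mul_self_eq_zero,
      mul_eq_zero] at h1
    exact h1.resolve_left (inv_ne_zero (norm_ne_zero_iff.2 hv'))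
  by_contra hne
  have hW : LinearMap.ker ((innerSL ℝ w ∘L H : E →L[ℝ] ℝ) : E →ₗ[ℝ] ℝ) ≠ ⊤ := fun ht => by
    have hmem : v ∈ LinearMap.ker ((innerSL ℝ w ∘L H : E →L[ℝ] ℝ) : E →ₗ[ℝ] ℝ) := by
      rw [ht]; exact Submodule.mem_top
    exact hne hmem
  obtain ⟨z, hz1, hz2⟩ :=
    (hzero.and (measure_eq_zero_iff_ae_notMem.1 (hnull _ hW))).exists
  exact hz2 hz1

variable (μ) in
/-- **Rank one**: every limit of renormalised products from the left has rank one. -/
theorem ae_limit_isLine (hμ : ∀ᵐ A ∂μ, A ∈ unitDet E) (hsi : StronglyIrreducible μ.support)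
    (hprox : Proximal μ.support) (hν : stepLaw μ ν = ν) :
    ∀ᵐ x ∂(Measure.infinitePi fun _ : ℕ => μ), ∀ (s : ℕ → ℕ) (H : E →L[ℝ] E),
      Tendsto s atTop atTop →
      Tendsto (fun j => ‖leftProd (s j) x‖⁻¹ • leftProd (s j) x) atTop (𝓝 H) → IsLine H := by
  obtain ⟨e⟩ : Nonempty (OrthonormalBasis (Fin (finrank ℝ E)) ℝ E) := ⟨stdOrthonormalBasis ℝ E⟩
  have hnull : ∀ W : Submodule ℝ E, W ≠ ⊤ → mass ν W = 0 := fun W hW =>
    stationary_mass_eq_zero μ hμ hsi ν hν hW
  have hall := ae_all_iff.2 fun q : Fin (finrank ℝ E) × Fin (finrank ℝ E) × ℕ =>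
    ae_tendsto_increment hμ hν (pairTest (e q.1) (e q.2.1)) q.2.2
  filter_upwards [hall, ae_all_unitDet μ hμ] with x hx hxu s H hs hH
  have hY : ∀ j, 0 < ‖leftProd (s j) x‖⁻¹ := fun j =>
    inv_pos.2 (one_pos.trans_le (one_le_norm (leftProd_mem_unitDet hxu _)))
  have hH1 : H ≠ 0 := fun h => by
    have h1 := hH.norm
    rw [h, norm_zero] at h1
    refine zero_ne_one (α := ℝ) (tendsto_nhds_unique h1 (tendsto_const_nhds.congr fun j => ?_))
    rw [norm_smul, norm_inv, norm_norm, inv_mul_cancel₀]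
    exact (inv_pos.1 (hY j)).ne'
  refine isLine_of_invariant hμ hsi hprox hnull hH1 fun w A hA => ?_
  refine ((dirMean_pairTest_eq_sum ν e w (H * A)).trans ?_).trans
    (dirMean_pairTest_eq_sum ν e w H).symm
  refine Finset.sum_congr rfl fun i _ => Finset.sum_congr rfl fun j _ => ?_
  have hinc : ∀ k, Tendsto (fun m => increment ν μ (pairTest (e i) (e j)) k (leftProd (s m) x))
      atTop (𝓝 0) := fun k => by
    have h := hx (i, j, k)
    exact h.comp hs
  have heq := dirMean_mul_eq (φ := pairTest (e i) (e j)) hμ hnull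
    (Y := fun m => leftProd (s m) x) (c := fun m => ‖leftProd (s m) x‖⁻¹) hY hH hH1 hinc hA
  exact congrArg (fun t : ℝ => ⟪e i, w⟫ * ⟪e j, w⟫ * t) heq

end FA.GuivarchRaugi
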