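import Fermat.Agent.GuivarchRaugi.Atkinson
import Fermat.Agent.GuivarchRaugi.Direction
import Fermat.Agent.GuivarchRaugi.FrameWalk

/-!
# The theorem of Guivarc'h and Raugi

Along a stationary law on orthonormal pairs the sums of `log b - log a` tend to `-∞`, so their
mean is negative by Atkinson's lemma; this mean is at least the second exponent minus the first.
-/

set_option autoImplicit false

noncomputable section

namespace FA.GuivarchRaugi

open MeasureTheory Filter Topology Module Set
open FA.FurstenbergLyapunov FA.FurstenbergKifer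
open scoped RealInnerProductSpace

variable {E : Type*} [NormedAddCommGroup E] [InnerProductSpace ℝ E] [FiniteDimensional ℝ E]
  [MeasurableSpace E] [BorelSpace E] [Nontrivial E]

theorem unbounded_of_proximal (hd : 1 < finrank ℝ E) {S : Set (E →L[ℝ] E)} (hS : S ⊆ unitDet E)
    (h : Proximal S) : Unbounded S := by
  obtain ⟨A, P, hA, hAP, u, hu, hP⟩ := h
  by_contra hb
  simp only [FA.FurstenbergLyapunov.Unbounded, not_forall, not_exists, not_and, not_lt] at hb
  obtain ⟨M, hM⟩ := hb
  have hA1 : ∀ j, A j ∈ unitDet E := fun j => Submonoid.closure_induction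
    (motive := fun B _ => B ∈ unitDet E) (fun B hB => hS hB) one_mem_unitDet
    (fun _ _ _ _ h1 h2 => mul_mem_unitDet h1 h2) (hA j)
  have hM1 : 1 ≤ M := (one_le_norm (hA1 0)).trans (hM _ (hA 0))
  have hlow : ∀ j, M⁻¹ ^ finrank ℝ E ≤ |(‖A j‖⁻¹ • A j).det| := fun j => by
    have hpos : 0 < ‖A j‖ := one_pos.trans_le (one_le_norm (hA1 j))
    show _ ≤ |LinearMap.det ((‖A j‖⁻¹ • A j : E →L[ℝ] E) : E →ₗ[ℝ] E)|
    rw [ContinuousLinearMap.toLinearMap_smul, LinearMap.det_smul, abs_mul,
      show |LinearMap.det (A j : E →ₗ[ℝ] E)| = 1 from hA1 j, mul_one, abs_pow, abs_inv, abs_norm]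
    exact pow_le_pow_left₀ (by positivity) (inv_anti₀ hpos (hM _ (hA j))) _
  have hdet : LinearMap.det (P : E →ₗ[ℝ] E) = 0 := by
    by_contra h0
    have hinj : LinearMap.ker (P : E →ₗ[ℝ] E) = ⊥ := by
      by_contra hk
      exact h0 (LinearMap.det_eq_zero_iff_ker_ne_bot.2 hk)
    have h1 := LinearMap.finrank_range_add_finrank_ker (P : E →ₗ[ℝ] E)
    rw [hinj, finrank_bot, add_zero] at h1
    have h2 : LinearMap.range (P : E →ₗ[ℝ] E) ≤ ℝ ∙ u := by
      rintro _ ⟨v, rfl⟩
      exact Submodule.mem_span_singleton.2 ⟨_, (hP v).symm⟩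
    have h3 := (Submodule.finrank_mono h2).trans_eq (finrank_span_singleton fun h => by
      rw [h, norm_zero] at hu; exact zero_ne_one hu)
    omega
  have h := ge_of_tendsto ((ContinuousLinearMap.continuous_det.tendsto P).comp hAP).abs
    (.of_forall hlow)
  rw [show P.det = 0 from hdet, abs_zero] at h
  exact absurd h (not_le.2 (by positivity))

/-- The first vector of a pair. -/
def fstSph (p : Frame E) : Sph E := ⟨p.1.1, mem_sphere_zero_iff_norm.2 p.2.1⟩

omit [FiniteDimensional ℝ E] [BorelSpace E] [Nontrivial E] in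
theorem measurable_fstSph : Measurable (fstSph : Frame E → Sph E) :=
  (measurable_fst.comp measurable_subtype_coe).subtype_mk

omit [MeasurableSpace E] [BorelSpace E] in
theorem fstSph_actFrame {A : E →L[ℝ] E} (hA : A ∈ unitDet E) (p : Frame E) :
    fstSph (actFrame A p) = act A (fstSph p) := by
  refine Subtype.ext ?_
  show (actFrame A p).1.1 = (dir (A p.1.1) : E)
  rw [actFrame, coe_frameOf (z := (A p.1.1, A p.1.2)) (images_ne_zero hA p).1
    (images_ne_zero hA p).2]

variable (μ : Measure (E →L[ℝ] E)) [IsProbabilityMeasure μ]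

/-- The first vectors of a stationary law form a stationary law. -/
theorem stepLaw_map_fstSph (hμ : ∀ᵐ A ∂μ, A ∈ unitDet E) {η : Measure (Frame E)}
    [IsProbabilityMeasure η] (hη : stepFrame μ η = η) :
    stepLaw μ (η.map fstSph) = η.map fstSph := by
  have hm : Measurable fun q : (E →L[ℝ] E) × Frame E => actFrame q.1 q.2 :=
    measurable_actFrame measurable_fst measurable_snd
  have h := Measure.map_prod_map μ η measurable_id (measurable_fstSph (E := E))
  rw [Measure.map_id] at h
  conv_rhs => rw [← hη, stepFrame, Measure.map_map measurable_fstSph hm]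
  rw [stepLaw, h, Measure.map_map (measurable_act_pair measurable_fst measurable_snd)
    (measurable_id.prodMap measurable_fstSph)]
  refine Measure.map_congr ?_
  filter_upwards [Measure.quasiMeasurePreserving_fst.ae hμ] with q hq
  exact (fstSph_actFrame hq q.2).symm

/-- **Simplicity of the top exponent.** -/
theorem exists_simple_exponent (hd : 1 < finrank ℝ E) (hμ : ∀ᵐ A ∂μ, A ∈ unitDet E)
    (hsi : StronglyIrreducible μ.support) (hprox : Proximal μ.support)
    (hint : Integrable (fun A => Real.log ‖A‖) μ) :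
    ∃ γ l : ℝ, l < γ ∧ 0 < γ ∧
      (∀ᵐ x ∂(Measure.infinitePi fun _ : ℕ => μ),
        Tendsto (fun n : ℕ => Real.log ‖randProd n x‖ / n) atTop (𝓝 γ)) ∧
      ∀ᵐ x ∂(Measure.infinitePi fun _ : ℕ => μ),
        Tendsto (fun n : ℕ =>
          Real.log ((randProd n x : E →ₗ[ℝ] E).singularValues 1) / n) atTop (𝓝 l) := by
  set π := Measure.infinitePi fun _ : ℕ => μ with hπ
  have hun : FA.FurstenbergLyapunov.Unbounded μ.support :=
    unbounded_of_proximal hd (Measure.support_subset_of_isClosed isClosed_unitDet hμ) hprox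
  obtain ⟨γ, hγ0, hγ, hγm⟩ := exists_exponent μ hμ hun hsi hint
  obtain ⟨L, hL, hLm⟩ := exists_pair_exponent μ hd hμ hint
  obtain ⟨η, hη, hstat, hLη⟩ := exists_stationary_frame μ hd hμ hint hγm hLm
  refine ⟨γ, L - γ, ?_, hγ0, hγ, ?_⟩
  swap
  · filter_upwards [hγ, hL, ae_all_unitDet μ hμ] with x hx1 hx2 hx
    refine (hx2.sub hx1).congr fun n => ?_
    rw [(logPair_bounds hd (randProd_mem_unitDet hx n)).2.2]
    ring
  set ν := η.map (fstSph (E := E))
  have : IsProbabilityMeasure ν :=
    Measure.isProbabilityMeasure_map measurable_fstSph.aemeasurable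
  have hfirst : ∫ v, ∫ A, Real.log ‖A (v : E)‖ ∂μ ∂ν = γ :=
    stationary_formula μ hμ hsi hint hγ ν (stepLaw_map_fstSph μ hμ hstat)
  have hmp : MeasurePreserving skewFrame (η.prod π) (η.prod π) :=
    ⟨measurable_skewFrame, by rw [map_skewFrame μ η, hstat]⟩
  set a : Frame E × (ℕ → E →L[ℝ] E) → ℝ := fun q => Real.log (fstFactor (q.2 0) q.1) with ha
  set f : Frame E × (ℕ → E →L[ℝ] E) → ℝ := fun q => 2 * a q - frameLog (q.2 0) q.1 with hf
  have hx0 : Measurable fun q : Frame E × (ℕ → E →L[ℝ] E) => q.2 0 :=
    (measurable_pi_apply 0).comp measurable_snd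
  have ham : Measurable a := measurable_log_fstFactor hx0 measurable_fst
  have hfm : Measurable f := (ham.const_mul 2).sub (measurable_frameLog hx0 measurable_fst)
  obtain ⟨C, hC0, hC⟩ := exists_abs_log_factor_le (E := E)
  have hai : Integrable a (η.prod π) := by
    refine (((measurePreserving_eval_infinitePi (fun _ : ℕ => μ) 0).integrable_comp_of_integrable
      ((integrable_const C).add (hint.const_mul (finrank ℝ E : ℝ)))).comp_snd η).mono'
      ham.aestronglyMeasurable ?_
    filter_upwards [Measure.quasiMeasurePreserving_snd.ae (ae_all_unitDet μ hμ)] with q hq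
    exact (hC _ (hq 0) q.1).1
  have hli : Integrable (fun q : Frame E × (ℕ → E →L[ℝ] E) => frameLog (q.2 0) q.1) (η.prod π) := by
    simpa only [randProd_one] using integrable_frameLog_randProd μ hμ hint 1 η
  have haγ : ∫ q, a q ∂(η.prod π) = γ := by
    rw [← hfirst, integral_prod a hai]
    have hmv : Measurable fun v : Sph E => ∫ A, Real.log ‖A (v : E)‖ ∂μ :=
      ((measurable_log_apply measurable_snd
        (measurable_subtype_coe.comp measurable_fst)).stronglyMeasurable.integral_prod_right
        (f := fun (v : Sph E) (A : E →L[ℝ] E) => Real.log ‖A (v : E)‖)).measurable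
    rw [integral_map measurable_fstSph.aemeasurable hmv.aestronglyMeasurable]
    refine integral_congr_ae (.of_forall fun p => ?_)
    show ∫ x : ℕ → E →L[ℝ] E, Real.log ‖x 0 p.1.1‖ ∂π = ∫ A, Real.log ‖A p.1.1‖ ∂μ
    have hm : Measurable fun A : E →L[ℝ] E => Real.log ‖A p.1.1‖ :=
      measurable_log_apply measurable_id measurable_const
    conv_rhs => rw [← (measurePreserving_eval_infinitePi (fun _ : ℕ => μ) 0).map_eq]
    exact (integral_map (φ := fun x : ℕ → E →L[ℝ] E => x 0)
      (f := fun A : E →L[ℝ] E => Real.log ‖A p.1.1‖)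
      (measurable_pi_apply 0).aemeasurable hm.aestronglyMeasurable).symm
  have hpos : 0 < ∫ q, f q ∂(η.prod π) := by
    refine integral_pos_of_birkhoffSum_atTop hmp hfm ((hai.const_mul 2).sub hli) ?_
    have hsum : ∀ (n : ℕ) (x : ℕ → E →L[ℝ] E), (∀ i, x i ∈ unitDet E) → ∀ p : Frame E,
        birkhoffSum skewFrame f n (p, x) =
          2 * Real.log (fstFactor (randProd n x) p) - frameLog (randProd n x) p := by
      intro n
      induction n with
      | zero =>
        intro x _ p
        have e : rej p.1.1 p.1.2 = p.1.2 := by rw [rej, p.2.2.2]; simp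
        simp [frameLog, fstFactor, sndFactor, randProd, FA.Kingman.cocycleProd, p.2.1, e, p.2.2.1]
      | succ n ih =>
        intro x hx p
        rw [birkhoffSum_succ']
        show _ + birkhoffSum skewFrame f n (actFrame (x 0) p, shift x) = _
        obtain ⟨-, e1, e2⟩ := factor_mul (hx 0)
          (randProd_mem_unitDet (x := shift x) (fun i => hx (i + 1)) n) p
        rw [ih (shift x) (fun i => hx (i + 1)), randProd_succ]
        simp only [hf, ha, frameLog, e1, e2]
        ring
    refine (Measure.ae_prod_iff_ae_ae (measurableSet_tendsto _ fun n =>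
      Finset.measurable_sum _ fun k _ => hfm.comp (measurable_skewFrame.iterate k))).2
      (.of_forall fun p => ?_)
    filter_upwards [ae_collapse μ hμ hsi hprox, ae_ratio_pos μ hμ hsi hprox (frame_fst_ne_zero p),
      ae_all_unitDet μ hμ] with x hx1 hx2 hx
    obtain ⟨r, hr0, hr⟩ := hx2
    have hσ : Tendsto (fun n => -Real.log
        ((randProd n x : E →ₗ[ℝ] E).singularValues 1 / ‖randProd n x‖)) atTop atTop :=
      tendsto_neg_atBot_atTop.comp (Real.tendsto_log_nhdsGT_zero.comp (tendsto_nhdsWithin_iff.2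
        ⟨hx1.2.1, .of_forall fun n => div_pos (singularValue_one_pos hd (randProd_mem_unitDet hx n))
          (one_pos.trans_le (one_le_norm (randProd_mem_unitDet hx n)))⟩))
    refine tendsto_atTop_mono (fun n => ?_)
      (hσ.atTop_add ((hr.log hr0.ne').const_mul 2))
    show _ ≤ birkhoffSum skewFrame f n (p, x)
    rw [hsum n x hx p]
    have hQ := randProd_mem_unitDet hx n
    obtain ⟨g1, g2⟩ := images_ne_zero hQ p
    have hN : 0 < ‖randProd n x‖ := one_pos.trans_le (one_le_norm hQ)
    have hs := singularValue_one_pos hd hQ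
    have hab := Real.log_le_log (mul_pos (norm_pos_iff.2 g1) (norm_pos_iff.2 g2))
      (factor_mul_le hd hQ p)
    rw [Real.log_mul (norm_ne_zero_iff.2 g1) (norm_ne_zero_iff.2 g2),
      Real.log_mul hN.ne' hs.ne'] at hab
    rw [Real.log_div hs.ne' hN.ne', Real.log_div (norm_ne_zero_iff.2 g1) hN.ne']
    simp only [frameLog, fstFactor, sndFactor] at hab ⊢
    linarith
  rw [hf, integral_sub (hai.const_mul 2) hli, integral_const_mul, haγ,
    integral_frameLog_one μ hμ hint η] at hpos
  linarith

end FA.GuivarchRaugi
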