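import Fermat.Agent.GuivarchRaugi.Frame
import Mathlib.MeasureTheory.Measure.Haar.InnerProductSpace

/-!
# A law on orthonormal pairs seeing two exponents

The pair of two independent uniform vectors of the unit ball misses the plane of the two greatest
singular vectors only on a small set, uniformly in the operator.
-/

set_option autoImplicit false

noncomputable section

namespace FA.GuivarchRaugi

open MeasureTheory Filter Topology Module Set Metric
open FA.FurstenbergLyapunov
open scoped RealInnerProductSpace ENNReal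

variable {E : Type*} [NormedAddCommGroup E] [InnerProductSpace ℝ E] [FiniteDimensional ℝ E]
  [MeasurableSpace E] [BorelSpace E]

/-- A slab of the unit ball is small. -/
theorem volume_slab_le {e : E} (he : ‖e‖ = 1) (s : ℝ) :
    volume (closedBall (0 : E) 1 ∩ {x | |⟪e, x⟫| ≤ s}) ≤
      ENNReal.ofReal (2 * s) * 2 ^ finrank ℝ E := by
  classical
  have : Nontrivial E := ⟨e, 0, fun h => by simp [h] at he⟩
  set i₀ : Fin (finrank ℝ E) := ⟨0, finrank_pos⟩
  obtain ⟨b, hb⟩ := Orthonormal.exists_orthonormalBasis_extension_of_card_eq (𝕜 := ℝ) (E := E)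
    (ι := Fin (finrank ℝ E)) (by simp) (v := fun _ => e) (s := {i₀})
    ⟨fun _ => he, fun i j hij => absurd (Subsingleton.elim i j) hij⟩
  set f : E → Fin (finrank ℝ E) → ℝ := fun x => WithLp.ofLp (b.repr x) with hf
  have hmp : MeasurePreserving f volume volume :=
    (PiLp.volume_preserving_ofLp _).comp b.measurePreserving_repr
  set I : Fin (finrank ℝ E) → Set ℝ := fun i => if i = i₀ then Icc (-s) s else Icc (-1) 1
  have hI : MeasurableSet (univ.pi I) := .univ_pi fun i => by
    simp only [I]; split <;> exact measurableSet_Icc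
  have hsub : closedBall (0 : E) 1 ∩ {x | |⟪e, x⟫| ≤ s} ⊆ f ⁻¹' univ.pi I := by
    rintro x ⟨hx1, hx2⟩ i -
    show WithLp.ofLp (b.repr x) i ∈ I i
    rw [b.repr_apply_apply]
    simp only [I]
    split
    · next h =>
      subst h
      rw [hb i₀ rfl]
      exact abs_le.1 hx2
    · refine abs_le.1 ((abs_real_inner_le_norm _ _).trans ?_)
      rw [b.orthonormal.1 i, one_mul]
      exact mem_closedBall_zero_iff.1 hx1
  refine (measure_mono hsub).trans ?_
  rw [hmp.measure_preimage hI.nullMeasurableSet, volume_pi_pi,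
    ← Finset.mul_prod_erase _ _ (Finset.mem_univ i₀)]
  refine mul_le_mul' (le_of_eq ?_) ?_
  · simp [I, two_mul]
  · refine (Finset.prod_le_pow_card _ _ 2 fun i hi => ?_).trans
      (pow_le_pow_right₀ one_le_two ((Finset.card_le_univ _).trans_eq (Fintype.card_fin _)))
    simp only [I, if_neg (Finset.ne_of_mem_erase hi), Real.volume_Icc]
    norm_num

/-- The uniform law of the unit ball. -/
def ballLaw (E : Type*) [NormedAddCommGroup E] [InnerProductSpace ℝ E] [FiniteDimensional ℝ E]
    [MeasurableSpace E] [BorelSpace E] : Measure E :=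
  (volume (closedBall (0 : E) 1))⁻¹ • volume.restrict (closedBall (0 : E) 1)

instance [Nontrivial E] : IsProbabilityMeasure (ballLaw E) := ⟨by
  rw [ballLaw, Measure.smul_apply, Measure.restrict_apply_univ, smul_eq_mul,
    ENNReal.inv_mul_cancel (measure_closedBall_pos _ _ one_pos).ne' measure_closedBall_lt_top.ne]⟩

theorem ae_norm_ballLaw : ∀ᵐ x ∂(ballLaw E), ‖x‖ ≤ 1 :=
  Measure.ae_smul_measure ((ae_restrict_mem measurableSet_closedBall).mono fun _ hx =>
    mem_closedBall_zero_iff.1 hx) _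

variable [Nontrivial E]

omit [Nontrivial E] in
theorem exists_ballLaw_slab_le :
    ∃ K : ℝ, 0 ≤ K ∧ ∀ e : E, ‖e‖ = 1 → ∀ s, 0 ≤ s →
      ballLaw E {x | |⟪e, x⟫| ≤ s} ≤ ENNReal.ofReal (K * s) := by
  set V := volume (closedBall (0 : E) 1)
  have hV : V⁻¹ * 2 ^ finrank ℝ E ≠ ⊤ :=
    ENNReal.mul_ne_top (ENNReal.inv_ne_top.2 (measure_closedBall_pos _ _ one_pos).ne')
      (ENNReal.pow_ne_top ENNReal.ofNat_ne_top)
  refine ⟨2 * (V⁻¹ * 2 ^ finrank ℝ E).toReal, by positivity, fun e he s hs => ?_⟩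
  rw [ballLaw, Measure.smul_apply, Measure.restrict_apply' measurableSet_closedBall,
    Set.inter_comm, smul_eq_mul]
  refine (mul_le_mul' le_rfl (volume_slab_le he s)).trans (le_of_eq ?_)
  rw [mul_left_comm, ← ENNReal.ofReal_toReal hV, ← ENNReal.ofReal_mul (by positivity),
    ENNReal.toReal_ofReal ENNReal.toReal_nonneg]
  congr 1
  ring

/-- Two vectors of the ball rarely have a small projection on a given plane. -/
theorem exists_pair_le :
    ∃ K : ℝ, 0 ≤ K ∧ ∀ e₀ e₁ : E, ‖e₀‖ = 1 → ‖e₁‖ = 1 → ⟪e₀, e₁⟫ = 0 → ∀ δ, 0 < δ →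
      (ballLaw E).prod (ballLaw E)
        {z : E × E | |⟪e₀, z.1⟫ * ⟪e₁, z.2⟫ - ⟪e₁, z.1⟫ * ⟪e₀, z.2⟫| ≤ δ ^ 2} ≤
        ENNReal.ofReal (K * δ) := by
  obtain ⟨K, hK0, hK⟩ := exists_ballLaw_slab_le (E := E)
  refine ⟨2 * K, by positivity, fun e₀ e₁ h₀ h₁ h01 δ hδ => ?_⟩
  set S := {z : E × E | |⟪e₀, z.1⟫ * ⟪e₁, z.2⟫ - ⟪e₁, z.1⟫ * ⟪e₀, z.2⟫| ≤ δ ^ 2}
  have hS : MeasurableSet S := measurableSet_le
    ((((continuous_const.inner continuous_fst).mul (continuous_const.inner continuous_snd)).sub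
      ((continuous_const.inner continuous_fst).mul
        (continuous_const.inner continuous_snd))).abs.measurable) measurable_const
  have hT : MeasurableSet {x : E | |⟪e₀, x⟫| ≤ δ} :=
    measurableSet_le (continuous_const.inner continuous_id).abs.measurable measurable_const
  rw [Measure.prod_apply hS]
  calc ∫⁻ x, ballLaw E (Prod.mk x ⁻¹' S) ∂(ballLaw E)
      ≤ ∫⁻ x, ({x : E | |⟪e₀, x⟫| ≤ δ}.indicator (fun _ => (1 : ℝ≥0∞)) x +
          ENNReal.ofReal (K * δ)) ∂(ballLaw E) := by
        refine lintegral_mono fun x => ?_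
        by_cases hx : |⟪e₀, x⟫| ≤ δ
        · rw [Set.indicator_of_mem (show x ∈ {x : E | |⟪e₀, x⟫| ≤ δ} from hx)]
          exact prob_le_one.trans le_self_add
        rw [not_le] at hx
        set w := ⟪e₀, x⟫ • e₁ - ⟪e₁, x⟫ • e₀ with hw
        have hw2 : ⟪e₀, x⟫ ^ 2 ≤ ‖w‖ ^ 2 := by
          rw [hw, norm_sub_sq_real, real_inner_smul_left, real_inner_smul_right,
            real_inner_comm e₀ e₁, h01, norm_smul, norm_smul, h₀, h₁, mul_one, mul_one,
            Real.norm_eq_abs, Real.norm_eq_abs, sq_abs, sq_abs]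
          nlinarith [sq_nonneg ⟪e₁, x⟫]
        have hwn : δ < ‖w‖ := by
          have h := sq_le_sq.1 hw2
          rw [abs_norm] at h
          exact hx.trans_le h
        refine le_trans ?_ le_add_self
        refine (measure_mono fun y hy => ?_).trans
          (hK (‖w‖⁻¹ • w) (norm_smul_inv_norm (norm_pos_iff.1 (hδ.trans hwn))) δ hδ.le)
        show |⟪‖w‖⁻¹ • w, y⟫| ≤ δ
        have hwy : ⟪w, y⟫ = ⟪e₀, x⟫ * ⟪e₁, y⟫ - ⟪e₁, x⟫ * ⟪e₀, y⟫ := by
          rw [hw, inner_sub_left, real_inner_smul_left, real_inner_smul_left]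
        rw [real_inner_smul_left, abs_mul, abs_inv, abs_norm, hwy, inv_mul_le_iff₀ (hδ.trans hwn)]
        refine le_trans hy ?_
        rw [sq]
        exact mul_le_mul_of_nonneg_right hwn.le hδ.le
    _ ≤ ENNReal.ofReal (2 * K * δ) := by
        rw [lintegral_add_right _ measurable_const, lintegral_indicator_const hT, one_mul,
          lintegral_const, measure_univ, mul_one, show 2 * K * δ = K * δ + K * δ by ring,
          ENNReal.ofReal_add (by positivity) (by positivity)]
        exact add_le_add (hK e₀ h₀ δ hδ.le) le_rfl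

/-- **A law on orthonormal pairs which sees the two greatest singular values.** -/
theorem exists_frame_law (hd : 1 < finrank ℝ E) :
    ∃ (ρ : Measure (Frame E)) (K : ℝ), IsProbabilityMeasure ρ ∧ 0 ≤ K ∧
      ∀ A ∈ unitDet E, ∀ δ B : ℝ, 0 < δ → δ ≤ 1 → 0 ≤ B →
        1 ≤ FA.Oseledets.topProd 2 (A : E →ₗ[ℝ] E) →
        (∀ p : Frame E, |Real.log (fstFactor A p)| ≤ B ∧ |Real.log (sndFactor A p)| ≤ B) →
        Real.log (FA.Oseledets.topProd 2 (A : E →ₗ[ℝ] E)) + 2 * Real.log δ -
            K * δ * (Real.log (FA.Oseledets.topProd 2 (A : E →ₗ[ℝ] E)) + 2 * B) ≤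
          ∫ p, Real.log (fstFactor A p) + Real.log (sndFactor A p) ∂ρ := by
  obtain ⟨base⟩ := nonempty_frame (E := E) hd
  obtain ⟨K, hK0, hK⟩ := exists_pair_le (E := E)
  have hm : Measurable fun z : E × E => frameOf base z :=
    measurable_frameOf measurable_const measurable_id
  refine ⟨((ballLaw E).prod (ballLaw E)).map fun z => frameOf base z, K,
    Measure.isProbabilityMeasure_map hm.aemeasurable, hK0, fun A hA δ B hδ hδ1 hB hT hAB => ?_⟩
  set T := Real.log (FA.Oseledets.topProd 2 (A : E →ₗ[ℝ] E))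
  have hT0 : 0 ≤ T := Real.log_nonneg hT
  set F : Frame E → ℝ := fun p => Real.log (fstFactor A p) + Real.log (sndFactor A p)
  have hFm : Measurable F :=
    (measurable_log_fstFactor measurable_const measurable_id).add
      (measurable_log_sndFactor measurable_const measurable_id)
  have hFb : ∀ p, ‖F p‖ ≤ 2 * B := fun p =>
    (norm_add_le _ _).trans (by rw [two_mul]; exact add_le_add (hAB p).1 (hAB p).2)
  rw [integral_map hm.aemeasurable hFm.aestronglyMeasurable]
  set P := (ballLaw E).prod (ballLaw E)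
  set b := FA.Oseledets.svBasis (A : E →ₗ[ℝ] E)
  set S := {z : E × E | |⟪b ⟨0, by omega⟩, z.1⟫ * ⟪b ⟨1, hd⟩, z.2⟫ -
    ⟪b ⟨1, hd⟩, z.1⟫ * ⟪b ⟨0, by omega⟩, z.2⟫| ≤ δ ^ 2}
  have hS : MeasurableSet S := measurableSet_le
    ((((continuous_const.inner continuous_fst).mul (continuous_const.inner continuous_snd)).sub
      ((continuous_const.inner continuous_fst).mul
        (continuous_const.inner continuous_snd))).abs.measurable) measurable_const
  have hSle : P.real S ≤ K * δ := ENNReal.toReal_le_of_le_ofReal (by positivity)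
    (hK _ _ (b.orthonormal.1 _) (b.orthonormal.1 _)
      (b.orthonormal.2 (by simp [Fin.ext_iff])) δ hδ)
  have hball : ∀ᵐ z ∂P, ‖z.1‖ ≤ 1 ∧ ‖z.2‖ ≤ 1 :=
    (Measure.quasiMeasurePreserving_fst.ae ae_norm_ballLaw).and
      (Measure.quasiMeasurePreserving_snd.ae ae_norm_ballLaw)
  have hptw : ∀ᵐ z ∂P, T + 2 * Real.log δ - S.indicator (fun _ => T + 2 * B) z ≤
      F (frameOf base z) := by
    filter_upwards [hball] with z hz
    by_cases hzS : z ∈ S
    · rw [Set.indicator_of_mem hzS]
      linarith [Real.log_nonpos hδ.le hδ1, neg_le_of_abs_le (hFb (frameOf base z))]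
    rw [Set.indicator_of_notMem hzS, sub_zero]
    set D := |⟪b ⟨0, by omega⟩, z.1⟫ * ⟪b ⟨1, hd⟩, z.2⟫ -
      ⟪b ⟨1, hd⟩, z.1⟫ * ⟪b ⟨0, by omega⟩, z.2⟫| with hD
    have hD1 : δ ^ 2 < D := not_le.1 hzS
    have hDpos : 0 < D := lt_of_le_of_lt (sq_nonneg δ) hD1
    have h := Real.log_le_log (mul_pos (one_pos.trans_le hT) hDpos)
      (topProd_mul_le hd hA base hz.1 hz.2 hD hDpos)
    obtain ⟨g1, g2⟩ := images_ne_zero hA (frameOf base z)
    rw [Real.log_mul (one_pos.trans_le hT).ne' hDpos.ne',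
      Real.log_mul (x := fstFactor A (frameOf base z)) (y := sndFactor A (frameOf base z))
        (norm_ne_zero_iff.2 g1) (norm_ne_zero_iff.2 g2)] at h
    have h2 := Real.log_le_log (by positivity) hD1.le
    rw [Real.log_pow] at h2
    push_cast at h2
    show _ ≤ Real.log (fstFactor A _) + Real.log (sndFactor A _)
    linarith
  have hind : Integrable (S.indicator fun _ => T + 2 * B) P := (integrable_const _).indicator hS
  have h := integral_mono_ae ((integrable_const _).sub hind)
    (Integrable.of_bound (hFm.comp hm).aestronglyMeasurable _ (.of_forall fun z => hFb _)) hptw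
  rw [integral_sub' (integrable_const _) hind, integral_const, probReal_univ, one_smul,
    integral_indicator_const _ hS, smul_eq_mul] at h
  refine le_trans ?_ h
  have := mul_le_mul_of_nonneg_right hSle (by positivity : 0 ≤ T + 2 * B)
  linarith

end FA.GuivarchRaugi
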